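import Fermat.Prelude.Def_GaloisRep_LocalConditions
import Fermat.Prelude.Def_ModularCurve_HeckeModule

/-!
# What is needed from the semistable reduction of `X₀(q M')` at `q`

The bound on the image of `(σ² - q²)(σ² - 1)²`, for a Frobenius `σ` at `q`, on prime-to-`q`
torsion; it gives the Frobenius eigenvalues of newforms at primes exactly dividing the level.
-/

noncomputable section

namespace Fermat.Agent.TwoComponent

open ModularCurve

local notation "Qbar" => AlgebraicClosure ℚ
local notation "GQ" => (AlgebraicClosure ℚ ≃ₐ[ℚ] AlgebraicClosure ℚ)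

/-- `(σ² - q²)(σ² - 1)² x`. -/
def frobSextic {G A : Type*} [Monoid G] [AddCommGroup A] [DistribMulAction G A] (σ : G) (q : ℕ)
    (x : A) : A :=
  let y := σ • σ • (σ • σ • x - x) - (σ • σ • x - x)
  σ • σ • y - q ^ 2 • y

/-- The `m`-torsion of `J₀(N)(ℚ̄)`. -/
def jTors (N : ℕ) [NeZero N] (m : ℕ) : Set (JZero N) := {x | m • x = 0}

/-- What is needed from the reduction of `X₀(M)` at a prime `q` exactly dividing `M = qM'`: for a
Frobenius element `σ` at `q`, the image of `(σ² - q²)(σ² - 1)²` on `J₀(M)[pⁿ]` (`p ≠ q`) is no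
larger than `J₀(M')[pⁿ] × J₀(M')[pⁿ]`. (The image of `σ² - 1` lies in the connected part; on it the
two push-forwards to `J₀(M')` determine the abelian part up to `σ² - 1`, and the toric part is
killed by `σ² - q²`.) -/
def FrobeniusImageBound (M M' q p : ℕ) [NeZero M] [NeZero M'] : Prop :=
  ∀ A : ValuationSubring Qbar, A.LiesOverPrime q → ∀ σ : GQ, A.IsFrobeniusAt σ q →
    ∀ n : ℕ, Nat.card ↥(frobSextic σ q '' jTors M (p ^ n)) ≤
      Nat.card ↥(jTors M' (p ^ n)) ^ 2

end Fermat.Agent.TwoComponent
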