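import Mathlib

/-!
# Linear algebra at a prime exactly dividing the level

If `(R² - q²)(R² - 1)²` has rank at most that of the old subspace, then on eigenvectors outside
the old subspace `Φ = R + q R⁻¹` takes the value `±(q + 1)`.
-/

open Polynomial

namespace Fermat.Agent.TwoComponent

variable {K : Type*} [Field K] {V W : Type*} [AddCommGroup V] [Module K V] [AddCommGroup W]
  [Module K W]

/-- `(R - q)(R + q)(R - 1)(R + 1)`. -/
def quarticEnd (q : K) (R : Module.End K V) : Module.End K V :=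
  (R * R - (q ^ 2) • 1) * (R * R - 1)

/-- `(R - q)(R + q)(R - 1)²(R + 1)²`. -/
def sexticEnd (q : K) (R : Module.End K V) : Module.End K V :=
  quarticEnd q R * (R * R - 1)

theorem aeval_comp_eq {Φ : Module.End K V} {Φ' : Module.End K W} (I : W →ₗ[K] V)
    (h : ∀ w, Φ (I w) = I (Φ' w)) (μ : K[X]) (w : W) : aeval Φ μ (I w) = I (aeval Φ' μ w) := by
  induction μ using Polynomial.induction_on' with
  | add a b ha hb => simp [ha, hb]
  | monomial n c =>
    have hpow : ∀ (m : ℕ) (w : W), (Φ ^ m) (I w) = I ((Φ' ^ m) w) := fun m => by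
      induction m with
      | zero => simp
      | succ m ih =>
        intro w
        rw [pow_succ, Module.End.mul_apply, h, ih, pow_succ, Module.End.mul_apply]
    rw [aeval_monomial, aeval_monomial, Algebra.algebraMap_eq_smul_one,
      Algebra.algebraMap_eq_smul_one, smul_mul_assoc, smul_mul_assoc, one_mul, one_mul,
      LinearMap.smul_apply, LinearMap.smul_apply,
      hpow, map_smul]

/-- If the quartic in `R` kills a nonzero vector of a stable subspace, the subspace contains an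
eigenvector of `R` with eigenvalue `±1` or `±q`. -/
theorem exists_eigen_of_quartic {q : K} {R : Module.End K V} {E : Submodule K V}
    (hE : ∀ x ∈ E, R x ∈ E) {v : V} (hvE : v ∈ E) (hv : v ≠ 0) (h : quarticEnd q R v = 0) :
    ∃ w ∈ E, w ≠ 0 ∧ ∃ ε : K, (ε = 1 ∨ ε = -1 ∨ ε = q ∨ ε = -q) ∧ R w = ε • w := by
  have step : ∀ (ε : K) (x : V), R x - ε • x = 0 → R x = ε • x := fun ε x h => sub_eq_zero.mp h
  have mem : ∀ (ε : K) (x : V), x ∈ E → R x - ε • x ∈ E := fun ε x hx =>
    E.sub_mem (hE x hx) (E.smul_mem ε hx)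
  let v1 := R v - (1 : K) • v
  let v2 := R v1 - (-1 : K) • v1
  let v3 := R v2 - q • v2
  by_cases h1 : v1 = 0
  · exact ⟨v, hvE, hv, 1, Or.inl rfl, step _ _ h1⟩
  by_cases h2 : v2 = 0
  · exact ⟨v1, mem _ _ hvE, h1, -1, Or.inr (Or.inl rfl), step _ _ h2⟩
  by_cases h3 : v3 = 0
  · exact ⟨v2, mem _ _ (mem _ _ hvE), h2, q, Or.inr (Or.inr (Or.inl rfl)), step _ _ h3⟩
  refine ⟨v3, mem _ _ (mem _ _ (mem _ _ hvE)), h3, -q, Or.inr (Or.inr (Or.inr rfl)), step _ _ ?_⟩
  refine Eq.trans ?_ h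
  simp only [v3, v2, v1, quarticEnd, Module.End.mul_apply, LinearMap.sub_apply,
    LinearMap.smul_apply, Module.End.one_apply, map_sub, map_smul, pow_two, one_smul]
  module

theorem exists_eigen_of_sextic {q : K} {R : Module.End K V} {E : Submodule K V}
    (hE : ∀ x ∈ E, R x ∈ E) {v : V} (hvE : v ∈ E) (hv : v ≠ 0) (h : sexticEnd q R v = 0) :
    ∃ w ∈ E, w ≠ 0 ∧ ∃ ε : K, (ε = 1 ∨ ε = -1 ∨ ε = q ∨ ε = -q) ∧ R w = ε • w := by
  by_cases h1 : (R * R - 1) v = 0
  · refine exists_eigen_of_quartic hE hvE hv ?_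
    rw [quarticEnd, Module.End.mul_apply, h1, map_zero]
  · exact exists_eigen_of_quartic hE (E.sub_mem (hE _ (hE _ hvE)) hvE) h1 h

theorem value_of_eigen {q t ε : K} (hq : q ≠ 0) {R Φ : Module.End K V}
    (hR : R * R = Φ * R - q • 1) {w : V} (hw : w ≠ 0) (hΦ : Φ w = t • w)
    (hε : ε = 1 ∨ ε = -1 ∨ ε = q ∨ ε = -q) (hRw : R w = ε • w) : t = q + 1 ∨ t = -(q + 1) := by
  have h := LinearMap.congr_fun hR w
  simp only [Module.End.mul_apply, LinearMap.sub_apply, LinearMap.smul_apply, Module.End.one_apply,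
    hRw, map_smul, hΦ, smul_smul, ← sub_smul] at h
  have h2 : ε * ε = ε * t - q := smul_left_injective K hw h
  rcases hε with rfl | rfl | rfl | rfl
  · left; linear_combination -h2
  · right; linear_combination h2
  · left; exact mul_left_cancel₀ hq (by linear_combination -h2)
  · right; exact mul_left_cancel₀ hq (by linear_combination h2)

/-- The old subspace is the range of the sextic. -/
theorem range_eq_range_sextic [FiniteDimensional K V] [FiniteDimensional K W] {q : K} (hq : q ≠ 0)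
    {R Φ : Module.End K V} {Φ' : Module.End K W} (I : W →ₗ[K] V) (hI : Function.Injective I)
    (hR : R * R = Φ * R - q • 1) (hcomm : Commute R Φ)
    (hΦI : ∀ w, Φ (I w) = I (Φ' w)) (μ : K[X]) (hμ : aeval Φ' μ = 0)
    (hμ1 : μ.eval (q + 1) ≠ 0) (hμ2 : μ.eval (-(q + 1)) ≠ 0)
    (hrank : Module.finrank K (LinearMap.range (sexticEnd q R)) ≤ Module.finrank K W) :
    LinearMap.range I = LinearMap.range (sexticEnd q R) := by
  -- the saturation of the old subspace
  let O : Submodule K V := LinearMap.range I ⊔ (LinearMap.range I).map R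
  have hΦO : ∀ x ∈ LinearMap.range I, Φ x ∈ LinearMap.range I := by
    rintro _ ⟨w, rfl⟩
    exact ⟨Φ' w, (hΦI w).symm⟩
  have hRO : ∀ x ∈ O, R x ∈ O := by
    intro x hx
    obtain ⟨a, ha, c, ⟨d, hd, rfl⟩, rfl⟩ := Submodule.mem_sup.mp hx
    rw [map_add]
    refine O.add_mem (Submodule.mem_sup_right ⟨a, ha, rfl⟩) ?_
    have e : R (R d) = R (Φ d) - q • d := by
      have h := LinearMap.congr_fun hR d
      simp only [Module.End.mul_apply, LinearMap.sub_apply, LinearMap.smul_apply,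
        Module.End.one_apply] at h
      rw [h, ← Module.End.mul_apply R Φ, hcomm.eq, Module.End.mul_apply]
    rw [e]
    exact O.sub_mem (Submodule.mem_sup_right ⟨_, hΦO d hd, rfl⟩)
      (O.smul_mem q (Submodule.mem_sup_left hd))
  have hμO : ∀ x ∈ O, aeval Φ μ x = 0 := by
    intro x hx
    obtain ⟨a, ha, c, ⟨d, hd, rfl⟩, rfl⟩ := Submodule.mem_sup.mp hx
    obtain ⟨wa, rfl⟩ := ha
    obtain ⟨wd, rfl⟩ := hd
    have hc : Commute R (aeval Φ μ) := by
      refine (Algebra.commute_of_mem_adjoin_singleton_of_commute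
        (aeval_mem_adjoin_singleton K Φ) hcomm)
    rw [map_add, ← Module.End.mul_apply (aeval Φ μ) R, ← hc.eq, Module.End.mul_apply,
      aeval_comp_eq I hΦI, aeval_comp_eq I hΦI, hμ]
    simp
  have hfix : ∀ x ∈ O, ∀ ε : K, (ε = 1 ∨ ε = -1 ∨ ε = q ∨ ε = -q) → R x = ε • x → x = 0 := by
    intro x hx ε hε hRx
    by_contra hx0
    have h := LinearMap.congr_fun hR x
    have hε0 : ε ≠ 0 := by
      rcases hε with rfl | rfl | rfl | rfl <;> simp [hq]
    simp only [Module.End.mul_apply, LinearMap.sub_apply, LinearMap.smul_apply,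
      Module.End.one_apply, hRx, map_smul, smul_smul] at h
    have hΦx : Φ x = ((ε * ε + q) / ε) • x := by
      rw [div_eq_inv_mul, ← smul_smul, add_smul, h, sub_add_cancel, smul_smul, inv_mul_cancel₀ hε0,
        one_smul]
    have hval := value_of_eigen hq hR hx0 hΦx hε hRx
    have h2 := Module.End.aeval_apply_of_hasEigenvector (p := μ)
      (⟨Module.End.mem_eigenspace_iff.mpr hΦx, hx0⟩ :
        Φ.HasEigenvector ((ε * ε + q) / ε) x)
    rw [hμO x hx] at h2
    rcases hval with hv | hv <;> rw [hv] at h2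
    · exact hx0 ((smul_eq_zero.mp h2.symm).resolve_left hμ1)
    · exact hx0 ((smul_eq_zero.mp h2.symm).resolve_left hμ2)
  -- `Ψ` is injective, hence surjective, on `O`
  set Ψ := sexticEnd q R with hΨdef
  have hΨO : ∀ x ∈ O, Ψ x ∈ O := by
    intro x hx
    simp only [hΨdef, sexticEnd, quarticEnd, Module.End.mul_apply, LinearMap.sub_apply,
      LinearMap.smul_apply, Module.End.one_apply]
    have hy : R (R x) - x ∈ O := O.sub_mem (hRO _ (hRO _ hx)) hx
    have hz : R (R (R (R x) - x)) - (R (R x) - x) ∈ O := O.sub_mem (hRO _ (hRO _ hy)) hy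
    exact O.sub_mem (hRO _ (hRO _ hz)) (O.smul_mem _ hz)
  have hinj : Function.Injective (Ψ.restrict hΨO) := by
    rw [← LinearMap.ker_eq_bot, LinearMap.ker_eq_bot']
    rintro ⟨x, hx⟩ h
    by_contra hx0
    obtain ⟨w, hw, hw0, ε, hε, hRw⟩ := exists_eigen_of_sextic hRO hx
      (fun h0 => hx0 (Subtype.ext h0)) (congrArg Subtype.val h)
    exact hw0 (hfix w hw ε hε hRw)
  have hsub : O ≤ LinearMap.range Ψ := fun x hx => by
    obtain ⟨y, hy⟩ := LinearMap.injective_iff_surjective.mp hinj ⟨x, hx⟩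
    exact ⟨y, congrArg Subtype.val hy⟩
  exact Submodule.eq_of_le_of_finrank_le (le_sup_left.trans hsub)
      (by rw [LinearMap.finrank_range_of_inj hI]; exact hrank)

/-- If a map killing the old subspace is a nonzero scalar on a nonzero `R`-stable subspace of the
`t`-eigenspace of `Φ`, then `t = ±(q + 1)`. -/
theorem eigen_eq_of_rank [FiniteDimensional K V] [FiniteDimensional K W] {q b t : K} (hq : q ≠ 0)
    {R Φ B : Module.End K V} {Φ' : Module.End K W} (I : W →ₗ[K] V) (hI : Function.Injective I)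
    (hR : R * R = Φ * R - q • 1) (hcomm : Commute R Φ)
    (hΦI : ∀ w, Φ (I w) = I (Φ' w)) (μ : K[X]) (hμ : aeval Φ' μ = 0)
    (hμ1 : μ.eval (q + 1) ≠ 0) (hμ2 : μ.eval (-(q + 1)) ≠ 0)
    (hrank : Module.finrank K (LinearMap.range (sexticEnd q R)) ≤ Module.finrank K W)
    (hBI : ∀ w, B (I w) = 0) (hBR : Commute B R) (hb : b ≠ 0)
    (E : Submodule K V) (hE : ∀ x ∈ E, R x ∈ E) (hBE : ∀ x ∈ E, B x = b • x)
    (hΦE : ∀ x ∈ E, Φ x = t • x) (hne : E ≠ ⊥) : t = q + 1 ∨ t = -(q + 1) := by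
  set Ψ := sexticEnd q R with hΨdef
  have hrange : LinearMap.range I = LinearMap.range Ψ :=
    range_eq_range_sextic hq I hI hR hcomm hΦI μ hμ hμ1 hμ2 hrank
  -- kill `Ψ` on the eigenspace
  obtain ⟨v, hvE, hv⟩ := Submodule.exists_mem_ne_zero_of_ne_bot hne
  have hΨv : Ψ v = 0 := by
    have h1 : B (Ψ v) = 0 := by
      obtain ⟨w, hw⟩ := (hrange.symm ▸ LinearMap.mem_range_self Ψ v : Ψ v ∈ LinearMap.range I)
      rw [← hw, hBI]
    have h2 : Commute B (R * R - 1) := (hBR.mul_right hBR).sub_right (Commute.one_right B)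
    have hc : Commute B Ψ :=
      (((hBR.mul_right hBR).sub_right ((Commute.one_right B).smul_right (q ^ 2))).mul_right
        h2).mul_right h2
    rw [← Module.End.mul_apply, hc.eq, Module.End.mul_apply, hBE v hvE, map_smul] at h1
    exact (smul_eq_zero.mp h1).resolve_left hb
  obtain ⟨w, hwE, hw0, ε, hε, hRw⟩ := exists_eigen_of_sextic hE hvE hv hΨv
  exact value_of_eigen hq hR hw0 (hΦE w hwE) hε hRw

/-- If a map injective on the old subspace kills a nonzero vector of an `R`-stable subspace of the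
`t`-eigenspace of `Φ`, then `t = ±(q + 1)`. -/
theorem eigen_eq_of_rank_new [FiniteDimensional K V] [FiniteDimensional K W] {q t : K} (hq : q ≠ 0)
    {R Φ : Module.End K V} {Φ' : Module.End K W} (I : W →ₗ[K] V) (hI : Function.Injective I)
    (hR : R * R = Φ * R - q • 1) (hcomm : Commute R Φ)
    (hΦI : ∀ w, Φ (I w) = I (Φ' w)) (μ : K[X]) (hμ : aeval Φ' μ = 0)
    (hμ1 : μ.eval (q + 1) ≠ 0) (hμ2 : μ.eval (-(q + 1)) ≠ 0)
    (hrank : Module.finrank K (LinearMap.range (sexticEnd q R)) ≤ Module.finrank K W)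
    {U : Type*} [AddCommGroup U] [Module K U] (J : V →ₗ[K] U) (hJI : ∀ w, J (I w) = 0 → w = 0)
    (E : Submodule K V) (hE : ∀ x ∈ E, R x ∈ E) (hΦE : ∀ x ∈ E, Φ x = t • x)
    {y : V} (hy : y ∈ E) (hy0 : y ≠ 0) (hJy : J y = 0) : t = q + 1 ∨ t = -(q + 1) := by
  have hrange : LinearMap.range I = LinearMap.range (sexticEnd q R) :=
    range_eq_range_sextic hq I hI hR hcomm hΦI μ hμ hμ1 hμ2 hrank
  by_contra hne
  have hΨE : ∀ x ∈ E, sexticEnd q R x ∈ E := by
    intro x hx
    simp only [sexticEnd, quarticEnd, Module.End.mul_apply, LinearMap.sub_apply,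
      LinearMap.smul_apply, Module.End.one_apply]
    have hy : R (R x) - x ∈ E := E.sub_mem (hE _ (hE _ hx)) hx
    have hz : R (R (R (R x) - x)) - (R (R x) - x) ∈ E := E.sub_mem (hE _ (hE _ hy)) hy
    exact E.sub_mem (hE _ (hE _ hz)) (E.smul_mem _ hz)
  have hinj : Function.Injective ((sexticEnd q R).restrict hΨE) := by
    rw [← LinearMap.ker_eq_bot, LinearMap.ker_eq_bot']
    rintro ⟨x, hx⟩ h
    by_contra hx0
    obtain ⟨w, hw, hw0, ε, hε, hRw⟩ := exists_eigen_of_sextic hE hx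
      (fun h0 => hx0 (Subtype.ext h0)) (congrArg Subtype.val h)
    exact hne (value_of_eigen hq hR hw0 (hΦE w hw) hε hRw)
  obtain ⟨x, hx⟩ := LinearMap.injective_iff_surjective.mp hinj ⟨y, hy⟩
  obtain ⟨w, hw⟩ := (hrange.symm ▸ LinearMap.mem_range_self (sexticEnd q R) (x : V) :
    sexticEnd q R (x : V) ∈ LinearMap.range I)
  have hwy : I w = y := hw.trans (congrArg Subtype.val hx)
  rw [← hwy] at hJy
  exact hy0 (by rw [← hwy, hJI w hJy, map_zero])

end Fermat.Agent.TwoComponent
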