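import Mathlib

/-!
# Rank from the size of images mod `pⁿ`

A `p`-adic matrix whose reductions mod `pⁿ` have images of at most `p ^ (n r)` elements has rank
at most `r`.
-/

namespace Fermat.Agent.TwoComponent

variable {p : ℕ} [Fact p.Prime]

/-- Lower bound: `d • (ℤ/pⁿ)^s` has at least `p^((n - v) s)` elements, `v` the valuation of `d`. -/
theorem pow_le_natCard_of_smul_range {d : ℤ_[p]} (hd : d ≠ 0) (n s : ℕ) (hn : d.valuation ≤ n)
    (X : Set (Fin s → ZMod (p ^ n)))
    (h : ∀ w : Fin s → ZMod (p ^ n), PadicInt.toZModPow n d • w ∈ X) :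
    p ^ ((n - d.valuation) * s) ≤ Nat.card ↥X := by
  have hp : 0 < p := (Fact.out : p.Prime).pos
  have : NeZero (p ^ n) := ⟨(pow_pos hp n).ne'⟩
  set v := d.valuation
  let f : (Fin s → Fin (p ^ (n - v))) → ↥X := fun a =>
    ⟨PadicInt.toZModPow n d • fun i => ((a i : ℕ) : ZMod (p ^ n)), h _⟩
  have hf : Function.Injective f := by
    intro a b hab
    funext i
    have h1 := congrFun (congrArg Subtype.val hab) i
    simp only [f, Pi.smul_apply, smul_eq_mul] at h1
    rw [show d = (PadicInt.unitCoeff hd : ℤ_[p]) * (p : ℤ_[p]) ^ v from PadicInt.unitCoeff_spec hd,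
      map_mul, map_pow, map_natCast, mul_assoc, mul_assoc] at h1
    have h2 := ((PadicInt.unitCoeff hd).isUnit.map
        (PadicInt.toZModPow (p := p) n)).mul_left_cancel h1
    rw [← Nat.cast_pow, ← Nat.cast_mul, ← Nat.cast_mul] at h2
    have hlt : ∀ c : Fin (p ^ (n - v)), p ^ v * (c : ℕ) < p ^ n := fun c => by
      calc p ^ v * (c : ℕ) < p ^ v * p ^ (n - v) :=
            Nat.mul_lt_mul_of_pos_left c.2 (pow_pos hp v)
        _ = p ^ n := by rw [← pow_add, Nat.add_sub_cancel' hn]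
    have h3 := congrArg ZMod.val h2
    rw [ZMod.val_natCast_of_lt (hlt _), ZMod.val_natCast_of_lt (hlt _)] at h3
    exact Fin.ext (Nat.eq_of_mul_eq_mul_left (pow_pos hp v) h3)
  have h4 := Nat.card_le_card_of_injective f hf
  rwa [Nat.card_eq_fintype_card, Fintype.card_fun, Fintype.card_fin, Fintype.card_fin,
    ← pow_mul] at h4

/-- If the image of `Ψ` mod `pⁿ` has at most `p^(n r)` elements for all `n`, then `Ψ` has rank at
most `r` over every field containing `ℤ_p`. -/
theorem rank_map_le_of_card_image {k r : ℕ} (Ψ : Matrix (Fin k) (Fin k) ℤ_[p])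
    (h : ∀ n, Nat.card ↥(Set.range fun v : Fin k → ZMod (p ^ n) =>
      ((PadicInt.toZModPow n).mapMatrix Ψ).mulVec v) ≤ p ^ (n * r))
    {K : Type*} [Field K] (j : ℤ_[p] →+* K) (hj : Function.Injective j) :
    (Ψ.map j).rank ≤ r := by
  classical
  have hp : 0 < p := (Fact.out : p.Prime).pos
  let ι : ℤ_[p] →+* ℚ_[p] := algebraMap ℤ_[p] ℚ_[p]
  have hι : Function.Injective ι := IsFractionRing.injective ℤ_[p] ℚ_[p]
  -- full rank factorisation over `ℚ_p`
  let L := (Ψ.map ι).mulVecLin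
  let b := Module.finBasis ℚ_[p] (LinearMap.range L)
  set s := Module.finrank ℚ_[p] (LinearMap.range L)
  let Xl : (Fin s → ℚ_[p]) →ₗ[ℚ_[p]] (Fin k → ℚ_[p]) :=
    (LinearMap.range L).subtype.comp b.equivFun.symm.toLinearMap
  let Yl : (Fin k → ℚ_[p]) →ₗ[ℚ_[p]] (Fin s → ℚ_[p]) := b.equivFun.toLinearMap.comp L.rangeRestrict
  have hXY : Xl.comp Yl = L := LinearMap.ext fun x => by simp [Xl, Yl]
  obtain ⟨Ll, hLl⟩ := Xl.exists_leftInverse_of_injective (LinearMap.ker_eq_bot.mpr
    ((LinearMap.range L).injective_subtype.comp b.equivFun.symm.injective))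
  obtain ⟨Rl, hRl⟩ := Yl.exists_rightInverse_of_surjective (LinearMap.range_eq_top.mpr
    (b.equivFun.surjective.comp L.surjective_rangeRestrict))
  have hone : (LinearMap.toMatrix' Ll) * (Ψ.map ι) * (LinearMap.toMatrix' Rl) = 1 := by
    have hL : LinearMap.toMatrix' L = Ψ.map ι := LinearMap.toMatrix'_toLin' _
    rw [← hL, ← LinearMap.toMatrix'_comp, ← LinearMap.toMatrix'_comp, ← LinearMap.toMatrix'_id]
    congr 1
    rw [← hXY, ← LinearMap.comp_assoc Yl Xl Ll, hLl, LinearMap.id_comp, hRl]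
  have hclear : ∀ {a c : ℕ} (A : Matrix (Fin a) (Fin c) ℚ_[p]),
      ∃ e : ℤ_[p], e ≠ 0 ∧ ∃ A' : Matrix (Fin a) (Fin c) ℤ_[p], A'.map ι = ι e • A := by
    intro a c A
    obtain ⟨e, he⟩ := IsLocalization.exist_integer_multiples_of_finite (nonZeroDivisors ℤ_[p])
      (fun x : Fin a × Fin c => A x.1 x.2)
    choose A' hA' using he
    refine ⟨e, nonZeroDivisors.coe_ne_zero e, Matrix.of fun i l => A' (i, l), ?_⟩
    ext i l
    show ι (A' (i, l)) = _
    rw [hA' (i, l), Algebra.smul_def]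
    rfl
  have hsr : s ≤ r := by
    by_contra hlt
    obtain ⟨e1, he1, U, hU⟩ := hclear (LinearMap.toMatrix' Ll)
    obtain ⟨e2, he2, V, hV⟩ := hclear (LinearMap.toMatrix' Rl)
    have hd : e1 * e2 ≠ 0 := mul_ne_zero he1 he2
    have hUV : U * Ψ * V = (e1 * e2) • (1 : Matrix (Fin s) (Fin s) ℤ_[p]) := by
      refine Matrix.map_injective hι ?_
      beta_reduce
      rw [Matrix.map_mul, Matrix.map_mul, hU, hV, Matrix.smul_mul, Matrix.smul_mul, Matrix.mul_smul,
        hone, smul_smul, ← map_mul]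
      ext i l
      simp [Matrix.map_apply, Matrix.one_apply]
      split <;> simp
    set v := (e1 * e2).valuation
    let n := v * (r + 1) + 1
    have hvn : v ≤ n := le_trans (Nat.le_mul_of_pos_right v r.succ_pos) (Nat.le_succ _)
    have : NeZero (p ^ n) := ⟨(pow_pos hp n).ne'⟩
    set f := PadicInt.toZModPow (p := p) n
    let S := Set.range fun x : Fin k → ZMod (p ^ n) => (f.mapMatrix Ψ).mulVec x
    have h5 := pow_le_natCard_of_smul_range hd n s hvn ((fun x => (U.map f).mulVec x) '' S)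
      (fun w => ⟨_, ⟨(V.map f).mulVec w, rfl⟩, by
        show (U.map f).mulVec ((Ψ.map f).mulVec ((V.map f).mulVec w)) = _
        rw [Matrix.mulVec_mulVec, Matrix.mulVec_mulVec, ← Matrix.map_mul, ← Matrix.map_mul, hUV]
        have e : ((e1 * e2) • (1 : Matrix (Fin s) (Fin s) ℤ_[p])).map f =
            f (e1 * e2) • (1 : Matrix (Fin s) (Fin s) (ZMod (p ^ n))) := by
          ext i l
          simp [Matrix.map_apply, Matrix.one_apply]
          split <;> simp
        rw [e, Matrix.smul_mulVec, Matrix.one_mulVec]⟩)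
    have h6 : p ^ ((n - v) * s) ≤ p ^ (n * r) :=
      h5.trans ((Nat.card_image_le (Set.toFinite S)).trans (h n))
    have h7 := (Nat.pow_le_pow_iff_right (Fact.out : p.Prime).one_lt).mp h6
    have h8 : (n - v) * (r + 1) ≤ (n - v) * s := Nat.mul_le_mul_left _ (by omega)
    have h9 : n * r + 1 ≤ (n - v) * (r + 1) := by
      have e1 : n - v = v * r + 1 := by simp only [n]; rw [mul_add, mul_one]; omega
      rw [e1]
      simp only [n]
      nlinarith
    omega
  obtain ⟨e1, he1, X, hX⟩ := hclear (LinearMap.toMatrix' Xl)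
  obtain ⟨e2, he2, Y, hY⟩ := hclear (LinearMap.toMatrix' Yl)
  have hfac : X * Y = (e1 * e2) • Ψ := by
    refine Matrix.map_injective hι ?_
    beta_reduce
    rw [Matrix.map_mul, hX, hY, Matrix.smul_mul, Matrix.mul_smul, ← LinearMap.toMatrix'_comp, hXY,
      show LinearMap.toMatrix' L = Ψ.map ι from LinearMap.toMatrix'_toLin' _, smul_smul,
      ← map_mul]
    ext i l
    simp [Matrix.map_apply]
  have hjd : j (e1 * e2) ≠ 0 := fun h0 => mul_ne_zero he1 he2 (hj (h0.trans (map_zero j).symm))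
  have heq : Ψ.map j = ((j (e1 * e2))⁻¹ • X.map j) * Y.map j := by
    rw [Matrix.smul_mul, ← Matrix.map_mul, hfac]
    ext i l
    rw [Matrix.smul_apply, Matrix.map_apply, Matrix.map_apply, Matrix.smul_apply, smul_eq_mul,
      smul_eq_mul, map_mul j _ (Ψ i l), inv_mul_cancel_left₀ hjd]
  rw [heq]
  exact ((Matrix.rank_mul_le_left _ _).trans (Matrix.rank_le_width _)).trans hsr

end Fermat.Agent.TwoComponent
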