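import Fermat.Agent.Attach.PadicModel
import Fermat.Agent.TwoComponent.NewPart.Interface
import Fermat.Agent.TwoComponent.NewPart.LinAlg
import Fermat.Agent.TwoComponent.NewPart.RankBound

/-!
# Torsion counts and the sextic in a Frobenius

In a torsion model of `J₀(N)` a bound on the image of `(σ² - q²)(σ² - 1)²` on `pⁿ`-torsion becomes
a bound on the image of the corresponding matrix over `ℤ/pⁿ`.
-/

noncomputable section

open ModularCurve Matrix

namespace Fermat.Agent.TwoComponent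

open Fermat.Agent.Attach

local notation "GQ" => (AlgebraicClosure ℚ ≃ₐ[ℚ] AlgebraicClosure ℚ)

/-- `(P² - c²)(P² - 1)²` for matrices. -/
def sexticMat {R : Type*} [CommRing R] {k : ℕ} (c : R) (P : Matrix (Fin k) (Fin k) R) :
    Matrix (Fin k) (Fin k) R :=
  (P * P - (c ^ 2) • 1) * (P * P - 1) * (P * P - 1)

theorem sexticMat_map {R S : Type*} [CommRing R] [CommRing S] {k : ℕ} (f : R →+* S) (c : R)
    (P : Matrix (Fin k) (Fin k) R) : (sexticMat c P).map f = sexticMat (f c) (P.map f) := by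
  have e : ((c ^ 2) • (1 : Matrix (Fin k) (Fin k) R)).map f =
      ((f c) ^ 2) • (1 : Matrix (Fin k) (Fin k) S) := by
    ext i j
    simp [Matrix.one_apply]
    split <;> simp
  simp only [sexticMat, Matrix.map_mul, Matrix.map_sub _ (map_sub f), e,
    Matrix.map_one _ (map_zero f) (map_one f)]

theorem sexticEnd_toLin {K : Type*} [Field K] {k : ℕ} (c : K) (P : Matrix (Fin k) (Fin k) K) :
    sexticEnd c (Matrix.toLinAlgEquiv' P) = Matrix.toLinAlgEquiv' (sexticMat c P) := by
  simp [sexticEnd, quarticEnd, sexticMat, map_mul, map_sub, map_smul]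

variable {N : ℕ} [NeZero N] {p : ℕ} [Fact p.Prime] (M : TorsionModel N p)

/-- A point from coordinates mod `pⁿ`. -/
def ptMod (n : ℕ) (y : Fin M.rk → ZMod (p ^ n)) : JZero N := M.pt n fun i => ((y i).cast : ℤ)

omit [Fact (Nat.Prime p)] in
theorem redVec_cast (n : ℕ) (y : Fin M.rk → ZMod (p ^ n)) :
    M.redVec n (fun i => ((y i).cast : ℤ)) = y :=
  funext fun _ => ZMod.intCast_zmod_cast _

omit [Fact (Nat.Prime p)] in
theorem ptMod_redVec (n : ℕ) (v : Fin M.rk → ℤ) : ptMod M n (M.redVec n v) = M.pt n v :=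
  (M.pt_eq_iff n _ _).mpr (redVec_cast M n _)

omit [Fact (Nat.Prime p)] in
theorem ptMod_injective (n : ℕ) : Function.Injective (ptMod M n) := fun x y h => by
  rw [← redVec_cast M n x, ← redVec_cast M n y]
  exact (M.pt_eq_iff n _ _).mp h

theorem natCard_jTors (n : ℕ) : Nat.card ↥(jTors N (p ^ n)) = p ^ (n * M.rk) := by
  have : NeZero (p ^ n) := ⟨pow_ne_zero _ (Fact.out : p.Prime).ne_zero⟩
  let e : (Fin M.rk → ZMod (p ^ n)) ≃ ↥(jTors N (p ^ n)) := Equiv.ofBijective
    (fun y => ⟨ptMod M n y, M.pt_torsion n _⟩)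
    ⟨fun x y h => ptMod_injective M n (congrArg Subtype.val h), fun x => by
      obtain ⟨v, hv⟩ := M.exists_pt_eq n x.1 x.2
      exact ⟨M.redVec n v, Subtype.ext ((ptMod_redVec M n v).trans hv)⟩⟩
  rw [← Nat.card_congr e, Nat.card_fun, Nat.card_zmod, Nat.card_fin, ← pow_mul]

omit [Fact (Nat.Prime p)] in
theorem frobSextic_pt (n q : ℕ) (σ : GQ) (v : Fin M.rk → ℤ) :
    frobSextic σ q (M.pt n v) = M.pt n ((sexticMat (q : ℤ) (M.galMat n σ)).mulVec v) := by
  simp only [frobSextic, M.galMat_spec, ← map_sub, ← map_nsmul]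
  congr 1
  simp only [sexticMat, mul_assoc, ← Matrix.mulVec_mulVec, Matrix.sub_mulVec, Matrix.smul_mulVec,
    Matrix.one_mulVec, Matrix.mulVec_sub]
  simp only [← Nat.cast_pow, natCast_zsmul, smul_sub]
  abel

theorem natCard_range_sextic_le (n q : ℕ) (σ : GQ) :
    Nat.card ↥(Set.range fun x : Fin M.rk → ZMod (p ^ n) =>
        ((PadicInt.toZModPow n).mapMatrix (sexticMat (q : ℤ_[p]) (M.repPadic σ))).mulVec x) ≤
      Nat.card ↥(frobSextic σ q '' jTors N (p ^ n)) := by
  have : NeZero (p ^ n) := ⟨pow_ne_zero _ (Fact.out : p.Prime).ne_zero⟩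
  have hfin : (jTors N (p ^ n)).Finite := Set.finite_coe_iff.mp
    (Nat.finite_of_card_ne_zero (by
      rw [natCard_jTors M n]; exact pow_ne_zero _ (Fact.out : p.Prime).ne_zero))
  have : Finite ↥(frobSextic σ q '' jTors N (p ^ n)) := Set.finite_coe_iff.mpr (hfin.image _)
  have hmat : (PadicInt.toZModPow n).mapMatrix (sexticMat (q : ℤ_[p]) (M.repPadic σ)) =
      M.redMat n (sexticMat (q : ℤ) (M.galMat n σ)) := by
    rw [RingHom.mapMatrix_apply, sexticMat_map, map_natCast]
    show _ = (sexticMat (q : ℤ) (M.galMat n σ)).map (Int.castRingHom (ZMod (p ^ n)))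
    rw [sexticMat_map, map_natCast]
    exact congrArg _ (M.repPadic_mod n σ)
  refine Nat.card_le_card_of_injective (fun y => ⟨ptMod M n y.1, ?_⟩) fun a b h =>
    Subtype.ext (ptMod_injective M n (congrArg Subtype.val h))
  obtain ⟨_, x, rfl⟩ := y
  refine ⟨ptMod M n x, M.pt_torsion n _, ?_⟩
  show frobSextic σ q (M.pt n _) = _
  rw [frobSextic_pt, ← ptMod_redVec]
  congr 1
  rw [M.redVec_mulVec, redVec_cast, hmat]

theorem injective_padicMap {O : Type} [CommRing O] [IsDomain O] [CharZero O] (f : ℤ_[p] →+* O) :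
    Function.Injective f := by
  refine (injective_iff_map_eq_zero f).mpr fun x hx => ?_
  by_contra h0
  rw [show x = (PadicInt.unitCoeff h0 : ℤ_[p]) * (p : ℤ_[p]) ^ x.valuation from
    PadicInt.unitCoeff_spec h0, map_mul, map_pow, map_natCast] at hx
  rcases mul_eq_zero.mp hx with h | h
  · exact ((PadicInt.unitCoeff h0).isUnit.map f).ne_zero h
  · exact (Nat.cast_ne_zero.mpr (Fact.out : p.Prime).ne_zero) (eq_zero_of_pow_eq_zero h)

end Fermat.Agent.TwoComponent
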