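import Fermat.Agent.Mono.Torsion
import Fermat.Agent.SquareLevel.Interface
import Fermat.Agent.TwoComponent.NewPart.Interface
import Fermat.Agent.TwoComponent.Ordinary.Toric
import Fermat.Agent.TwoComponent.Trace

/-!
# The Frobenius image bound for `X₀(N q)`

On the two-component reduction of `X₀(N q)` at `q` the square of a Frobenius fixes the nodes, so
the image of `(σ² - q²)(σ² - 1)²` on `pⁿ`-torsion is bounded by the old torsion.
-/

noncomputable section

open ModularCurve AlgebraicCurve Fermat.Agent.Red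

namespace Fermat.Agent.TwoComponent

local notation "Qb" => AlgebraicClosure ℚ
local notation "GQ" => (AlgebraicClosure ℚ ≃ₐ[ℚ] AlgebraicClosure ℚ)

section Model

variable (M q : ℕ) [hq : Fact q.Prime] [NeZero M] (hqM : ¬ q ∣ M)
variable {A : ValuationSubring (AlgebraicClosure ℚ)} {k : Type*} [Field k] {π : A →+* k}
variable [CharP k q] [IsAlgClosed k]

omit [NeZero M] in
theorem coeffSemilinear_sq (φ : k ≃+* k) (hφ : ∀ x, φ x = x ^ (q * q)) :
    EichlerShimura.coeffSemilinear M φ = frobC M q (k := k) * frobC M q (k := k) := by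
  have : PerfectRing k q := PerfectField.toPerfectRing q
  have e : ∀ x : k, φ x = frobeniusEquiv k q (frobeniusEquiv k q x) := fun x => by
    rw [frobeniusEquiv_apply, frobeniusEquiv_apply, frobenius_def, frobenius_def, ← pow_mul, hφ]
  refine Subtype.ext (Prod.ext (RingEquiv.ext fun x => Subtype.ext ?_) (RingEquiv.ext e))
  show coeffMap (φ : k →+* k) (x : LaurentSeries k) =
    coeffMap (frobeniusEquiv k q : k →+* k)
      (coeffMap (frobeniusEquiv k q : k →+* k) (x : LaurentSeries k))
  ext n
  exact e _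

variable (hres : ResidueAt A q π)
  (hgen : genusFF Qb (modularFunctionFieldBar M) ≤ genusFF k (CK M k))

/-- The square of a Frobenius fixes every node of the model. -/
theorem modelSemiRed_fixesNodes {σ : GQ} {φ : k ≃+* k} (h : EichlerShimura.InducesOn A π σ φ)
    (hφ : ∀ x, φ x = x ^ (q * q)) :
    (modelSemiRed M q hqM hres hgen h).FixesNodes := by
  intro s i
  obtain ⟨y, hy, hs⟩ := (mem_nodesC M q hqM hres hgen).mp s.2
  have hfix : frobC M q (k := k) • (frobC M q (k := k) • y) = y := hy.2.1
  rw [modelSemiRed_resAut, coeffSemilinear_sq M q φ hφ]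
  cases i
  · show _ • (s : Place k (CK M k) × Place k (CK M k)).1 =
      (s : Place k (CK M k) × Place k (CK M k)).1
    rw [← hs, mul_smul]
    exact hfix
  · show _ • (s : Place k (CK M k) × Place k (CK M k)).2 =
      (s : Place k (CK M k) × Place k (CK M k)).2
    rw [← hs, mul_smul]
    exact congrArg (frobC M q (k := k) • ·) hfix

end Model

/-- The bound on the image of the sextic in a Frobenius at `q` on `J₀(N q)[pⁿ]`. -/
theorem frobeniusImageBound (N q p : ℕ) [NeZero N] [NeZero q] [Fact p.Prime] (hq : q.Prime)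
    (hqN : ¬ q ∣ N) (hqp : q ≠ p) : FrobeniusImageBound (N * q) N q p := by
  intro A hA σ hσ n
  have : Fact q.Prime := ⟨hq⟩
  have hp : p.Prime := Fact.out
  have := Red.isAlgClosed_residueField A
  have := Red.charP_residueField A hA
  have hres := residueAt q hA
  have hgen := Red.genus_le A hqN hA
  set m := p ^ n with hm
  have hm0 : 0 < m := pow_pos hp.pos n
  have hmq : ¬ q ∣ m := fun h => hqp ((Nat.prime_dvd_prime_iff_eq hq hp).mp (hq.dvd_of_dvd_pow h))
  have hmk : (m : IsLocalRing.ResidueField A) ≠ 0 := fun h =>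
    hmq ((CharP.cast_eq_zero_iff _ q m).mp h)
  have hnt : ∃ t : A, t ≠ 0 ∧ IsLocalRing.residue A t = 0 :=
    ⟨(q : A), fun h => hq.ne_zero (Nat.cast_eq_zero.mp h), by rw [map_natCast, CharP.cast_eq_zero]⟩
  -- the square of Frobenius
  have hσd := hσ.mem_decompositionSubgroup
  have h2 : σ * σ ∈ A.decompositionSubgroup ℚ := mul_mem hσd hσd
  let φ := EichlerShimura.residueAut A ⟨σ * σ, h2⟩
  have hφ : ∀ x, φ x = x ^ (q * q) := fun x => by
    have e : φ x = EichlerShimura.residueAut A ⟨σ, hσd⟩ (EichlerShimura.residueAut A ⟨σ, hσd⟩ x) :=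
      mul_smul (⟨σ, hσd⟩ : A.decompositionSubgroup ℚ) ⟨σ, hσd⟩ x
    rw [e, EichlerShimura.residueAut_frobenius hσ, EichlerShimura.residueAut_frobenius hσ,
      ← pow_mul]
  let S := modelSemiRed N q hqN hres hgen (EichlerShimura.inducesOn_residueAut h2)
  have hSfix : S.FixesNodes := modelSemiRed_fixesNodes N q hqN hres hgen _ hφ
  have hψ : ∀ P, (degenAlpha N q hqN hres hgen).ψ ((degenBeta N q hqN hres hgen).ψ P) =
      S.resAut • P := fun P => by
    rw [show S.resAut = _ from modelSemiRed_resAut N q hqN hres hgen _,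
      coeffSemilinear_sq N q φ hφ, mul_smul]
    rfl
  have hψ' : ∀ P, (degenBeta N q hqN hres hgen).ψ ((degenAlpha N q hqN hres hgen).ψ P) =
      S.resAut • P := hψ
  have hS_act : ∀ x : JZero (N * q), σ • σ • x = S.aut • x := fun x => by
    rw [← mul_smul]
    rfl
  let Θ : JZero (N * q) → JZero (N * q) := fun u =>
    S.aut • (S.aut • u - u) - q ^ 2 • (S.aut • u - u)
  have hsextic : ∀ x, frobSextic σ q x = Θ (S.aut • x - x) := fun x => by
    simp only [frobSextic, Θ, hS_act]
  -- `Θ` on the classes of slope zero only depends on the two pushforwards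
  let pα := SquareLevel.pushAlpha N q
  let pβ := SquareLevel.pushBeta N q
  have hkey : ∀ u u', (modelTwoRed N q hqN hres hgen).InT0 m u →
      (modelTwoRed N q hqN hres hgen).InT0 m u' → pα u = pα u' → pβ u = pβ u' → Θ u = Θ u' := by
    intro u u' hu hu' ha hb
    have hz := ((modelTwoRed N q hqN hres hgen).T0 m).sub_mem hu hu'
    obtain ⟨D, hD⟩ := Pic0.mk_surjective (u - u')
    have hα := Hecke.alphaIntegral Qb N q
    have hβ := Hecke.betaIntegral Qb N q
    have h := S.smul_eq_nsmul_of_pushforward_eq_zero hSfix hm0 hmk hnt (a := q ^ 2)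
      (fun z _ => by rw [sq]; exact hφ z)
      (degenAlpha N q hqN hres hgen) (degenBeta N q hqN hres hgen) rfl rfl hψ hψ'
      (fun h => RR.ofFF.eq_const_of_ord_nonneg (f := h))
      (fun h => RR.ofFF.eq_const_of_ord_nonneg (f := h)) hα hβ
      (Hecke.finiteAlong _) (Hecke.finiteAlong _) (Hecke.normFormulaAlong _ _)
      (Hecke.normFormulaAlong _ _) hz hD
      (Ordinary.eq_zero_of_mem_principal
        (D := ⟨_, Divisor.pushforwardAlong_mem_degZero _ hα D.2⟩) (by
        rw [← SquareLevel.pushAlpha_mk, hD, map_sub]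
        exact sub_eq_zero.mpr ha))
      (Ordinary.eq_zero_of_mem_principal
        (D := ⟨_, Divisor.pushforwardAlong_mem_degZero _ hβ D.2⟩) (by
        rw [← SquareLevel.pushBeta_mk, hD, map_sub]
        exact sub_eq_zero.mpr hb))
    rw [← sub_eq_zero]
    have e : Θ u - Θ u' = S.aut • (S.aut • (u - u') - (u - u')) -
        q ^ 2 • (S.aut • (u - u') - (u - u')) := by
      simp only [Θ, smul_sub, nsmul_sub]
      abel
    rw [e, h, sub_self]
  -- count
  have hT0 : ∀ x ∈ jTors (N * q) m,
      (modelTwoRed N q hqN hres hgen).InT0 m (S.aut • x - x) := fun x hx =>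
    S.smul_sub_mem_of_fixesNodes hSfix hx
  have hpush : ∀ x ∈ jTors (N * q) m,
      pα (S.aut • x - x) ∈ jTors N m ∧ pβ (S.aut • x - x) ∈ jTors N m := fun x hx => by
    have h0 := TwoRed.InT0.nsmul_eq_zero (hT0 x hx)
    constructor <;> show m • _ = 0 <;> rw [← map_nsmul, h0, map_zero]
  have : NeZero m := ⟨hm0.ne'⟩
  have : Finite ↥(jTors N m) := by
    have := Mono.finite_torsion_JZero N m
    exact Finite.of_injective
      (fun x => (⟨(x : JZero N), Pic0.mem_torsion.mpr ((natCast_zsmul _ m).trans x.2)⟩ :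
        Pic0.torsion Qb (modularFunctionFieldBar N) m))
      fun x y h => Subtype.ext (congrArg Subtype.val h)
  rw [sq, ← Nat.card_prod]
  let pick : ↥(frobSextic σ q '' jTors (N * q) m) → JZero (N * q) := fun y => y.2.choose
  refine Nat.card_le_card_of_injective
    (fun y => ((⟨_, (hpush (pick y) y.2.choose_spec.1).1⟩ : ↥(jTors N m)),
      (⟨_, (hpush (pick y) y.2.choose_spec.1).2⟩ : ↥(jTors N m)))) fun y y' he => ?_
  obtain ⟨ha, hb⟩ := Prod.ext_iff.mp he
  refine Subtype.ext ?_
  rw [← y.2.choose_spec.2, ← y'.2.choose_spec.2, hsextic, hsextic]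
  exact hkey _ _ (hT0 _ y.2.choose_spec.1) (hT0 _ y'.2.choose_spec.1)
    (congrArg Subtype.val ha) (congrArg Subtype.val hb)

end Fermat.Agent.TwoComponent
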