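import Fermat.Prelude.Def_GaloisRep_Adic
import Fermat.Agent.Attach.Coeff

/-!
# Approximating traces on two levels at once

`g + χ(g) g⁻¹` on two torsion models and `trace ρ(g)` are simultaneously approximated by one
polynomial in the Hecke operators at good primes.
-/

noncomputable section

open Polynomial

namespace Fermat.Agent.TwoComponent

open Fermat.Agent.Attach

local notation "Qbar" => AlgebraicClosure ℚ
local notation "GQ" => (AlgebraicClosure ℚ ≃ₐ[ℚ] AlgebraicClosure ℚ)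

variable {N N' : ℕ} [NeZero N] [NeZero N'] {p : ℕ} [Fact p.Prime]

variable {O : Type} [CommRing O] [IsLocalRing O] [IsAdicComplete (IsLocalRing.maximalIdeal O) O]
  (hp : (p : O) ∈ IsLocalRing.maximalIdeal O)

/-- Entries of `g + χ(g) g⁻¹ - b` lie in `𝔪ⁿ` if they vanish mod `pⁿ`. -/
theorem good_sub_mem (M : TorsionModel N p) {S : Set ℕ} (hS : ∀ q, q.Prime → q ∣ N → q ∈ S)
    (n : ℕ) (g : GQ) (b : CuspForm.heckeAlgebra N 2 S)
    (hb : M.rep n g + cyc p n g • M.rep n g⁻¹ = M.matS hS n b) :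
    M.repO hp g + TorsionModel.cycO hp g • M.repO hp g⁻¹ - M.matO O hS b ∈
      IsLocalRing.maximalIdeal O ^ n • (⊤ : Submodule O (Matrix (Fin M.rk) (Fin M.rk) O)) := by
  set φ := padicMap p (IsLocalRing.maximalIdeal O) hp
  refine matrix_mem_smul_top _ _ fun i j => ?_
  rw [M.matO_eq hp hS, Matrix.sub_apply, Matrix.add_apply, Matrix.smul_apply, smul_eq_mul]
  show φ (M.repPadic g i j) + φ ((cycPadic p g : ℤ_[p]ˣ) : ℤ_[p]) * φ (M.repPadic g⁻¹ i j)
    - φ (M.matO ℤ_[p] hS b i j) ∈ _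
  rw [← map_mul, ← map_add]
  refine padicMap_sub_mem p _ hp n _ _ ?_
  have h2 : PadicInt.toZModPow n (M.matO ℤ_[p] hS b i j) = M.matS hS n b i j :=
    congrFun (congrFun (M.matO_mod hS n b) i) j
  rw [h2, ← hb, map_add, map_mul, Matrix.add_apply, Matrix.smul_apply, smul_eq_mul,
    ← M.repPadic_mod n g, ← M.repPadic_mod n g⁻¹]
  rfl

/-- Power traces with a natural-number determinant stay in a subalgebra. -/
theorem powTrace_natCast_mem {R A : Type*} [CommRing R] [Ring A] [Algebra R A] (B : Subalgebra R A)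
    {x : A} (hx : x ∈ B) (ℓ k : ℕ) : powTrace x (ℓ : A) k ∈ B := by
  induction k using Nat.strong_induction_on with
  | _ k ih =>
    match k with
    | 0 => exact natCast_mem B 2
    | 1 => exact hx
    | k + 2 =>
      exact sub_mem (mul_mem hx (ih (k + 1) (by omega)))
        (mul_mem (natCast_mem B ℓ) (ih k (by omega)))

/-- A pair with both entries in `I • ⊤` lies in `I • ⊤`. -/
theorem prodMk_mem_smul_top {R A B : Type*} [CommRing R] [AddCommGroup A] [Module R A]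
    [AddCommGroup B] [Module R B] {I : Ideal R} {a : A} {b : B} (ha : a ∈ I • (⊤ : Submodule R A))
    (hb : b ∈ I • (⊤ : Submodule R B)) : (a, b) ∈ I • (⊤ : Submodule R (A × B)) := by
  rw [← Prod.fst_add_snd (a, b)]
  exact add_mem (Submodule.smul_top_le_comap_smul_top I (LinearMap.inl R A B) ha)
    (Submodule.smul_top_le_comap_smul_top I (LinearMap.inr R A B) hb)

/-- The matrix of an adic representation in some basis. -/
def repMat (ρ : GaloisRepAdic O) : GQ →* Matrix (Fin 2) (Fin 2) O :=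
  (LinearMap.toMatrixAlgEquiv (Module.finBasisOfFinrankEq O ρ.V ρ.finrank_eq)).toMonoidHom.comp ρ.ρ

omit [IsAdicComplete (IsLocalRing.maximalIdeal O) O] in
theorem repMat_charpoly (ρ : GaloisRepAdic O) (g : GQ) :
    (repMat ρ g).charpoly = LinearMap.charpoly (ρ.ρ g) :=
  LinearMap.charpoly_toMatrix _ _

omit [IsAdicComplete (IsLocalRing.maximalIdeal O) O] in
theorem trace_repMat (ρ : GaloisRepAdic O) (g : GQ) : (repMat ρ g).trace = ρ.trace g :=
  (LinearMap.trace_eq_matrix_trace O _ _).symm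

omit [IsAdicComplete (IsLocalRing.maximalIdeal O) O] in
theorem repMat_sub_one_mem (ρ : GaloisRepAdic O) {n : ℕ} {g : GQ}
    (h : ∀ v : ρ.V, ρ.ρ g v - v ∈ IsLocalRing.maximalIdeal O ^ n • (⊤ : Submodule O ρ.V)) :
    NearOne (IsLocalRing.maximalIdeal O ^ n) (repMat ρ g) := by
  intro i j
  set b := Module.finBasisOfFinrankEq O ρ.V ρ.finrank_eq
  have e : repMat ρ g i j - (1 : Matrix (Fin 2) (Fin 2) O) i j = b.repr (ρ.ρ g (b j) - b j) i := by
    rw [map_sub, Finsupp.sub_apply, b.repr_self, Finsupp.single_apply, Matrix.one_apply]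
    simp only [eq_comm (a := j)]
    exact congrArg (· - _) (LinearMap.toMatrixAlgEquiv_apply b _ i j)
  rw [e]
  exact Submodule.smul_induction_on (p := fun x => b.repr x i ∈ IsLocalRing.maximalIdeal O ^ n)
    (h (b j))
    (fun a ha x _ => by
      rw [map_smul, Finsupp.smul_apply, smul_eq_mul]
      exact Ideal.mul_mem_right _ _ ha)
    (fun x y hx hy => by
      rw [map_add, Finsupp.add_apply]
      exact Ideal.add_mem _ hx hy)

variable (M : TorsionModel N p) (M' : TorsionModel N' p)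

/-- Triples: endomorphisms of the two models and a scalar. -/
abbrev Triple (M : TorsionModel N p) (M' : TorsionModel N' p) (O : Type) :=
  Matrix (Fin M.rk) (Fin M.rk) O × Matrix (Fin M'.rk) (Fin M'.rk) O × O

/-- The joint Hecke algebra of the two models and a character. -/
def jointHecke {S : Set ℕ} (hS : ∀ q, q.Prime → q ∣ N → q ∈ S) (hdvd : N' ∣ N)
    (θ : CuspForm.heckeAlgebra N 2 S →+* O) : Subalgebra O (Triple M M' O) :=
  Algebra.adjoin O {x | ∃ (ℓ : ℕ) (hℓ : ℓ.Prime) (hℓN : ¬ ℓ ∣ N) (hℓS : ℓ ∉ S),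
    x = (M.matO O hS (CuspForm.heckeAlgebra.T hℓ hℓN hℓS),
      M'.matO O (fun q hq hqN => hS q hq (hqN.trans hdvd))
        (CuspForm.heckeAlgebra.T hℓ (fun h => hℓN (h.trans hdvd)) hℓS),
      θ (CuspForm.heckeAlgebra.T hℓ hℓN hℓS))}

/-- Modulo `𝔪ⁿ`, `g + χ(g) g⁻¹` on both models is given by one power trace `powTrace T_ℓ ℓ k`
for a good prime `ℓ`, with `g` agreeing with the `k`-th power of a Frobenius at `ℓ` on a given
finite level. -/
theorem exists_good_approx (hG : TorsionGalois N p) (hG' : TorsionGalois N' p) (hdvd : N' ∣ N)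
    {S : Finset ℕ} (hpS : p ∈ S) (hS : ∀ q, q.Prime → q ∣ N → q ∈ (↑S : Set ℕ)) (n : ℕ) (g : GQ)
    (L₀ : IntermediateField ℚ Qbar) [FiniteDimensional ℚ L₀] :
    ∃ (ℓ : ℕ) (hℓ : ℓ.Prime) (hℓN : ¬ ℓ ∣ N) (hℓS : ℓ ∉ (↑S : Set ℕ)) (A : ValuationSubring Qbar)
      (σ : GQ) (k : ℕ), A.LiesOverPrime ℓ ∧ A.IsFrobeniusAt σ ℓ ∧
      (∀ a ∈ L₀, ((σ ^ k)⁻¹ * g) a = a) ∧
      TorsionModel.cycO hp g - (ℓ : O) ^ k ∈ IsLocalRing.maximalIdeal O ^ n ∧
      M.repO hp g + TorsionModel.cycO hp g • M.repO hp g⁻¹ - M.matO O hS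
          (powTrace (CuspForm.heckeAlgebra.T hℓ hℓN hℓS)
            (ℓ : CuspForm.heckeAlgebra N 2 (↑S : Set ℕ)) k) ∈
        IsLocalRing.maximalIdeal O ^ n • (⊤ : Submodule O (Matrix (Fin M.rk) (Fin M.rk) O)) ∧
      M'.repO hp g + TorsionModel.cycO hp g • M'.repO hp g⁻¹ -
          M'.matO O (fun q hq hqN => hS q hq (hqN.trans hdvd))
            (powTrace (CuspForm.heckeAlgebra.T hℓ (fun h => hℓN (h.trans hdvd)) hℓS)
              (ℓ : CuspForm.heckeAlgebra N' 2 (↑S : Set ℕ)) k) ∈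
        IsLocalRing.maximalIdeal O ^ n • (⊤ : Submodule O (Matrix (Fin M'.rk) (Fin M'.rk) O)) := by
  obtain ⟨L1, hL1, h1⟩ := M.rep_eq_one_of_finite_level hG n
  obtain ⟨L1', hL1', h1'⟩ := M'.rep_eq_one_of_finite_level hG' n
  obtain ⟨L2, hL2, h2⟩ := cyc_finite_level p n
  set L := L1 ⊔ L1' ⊔ L2 ⊔ L₀
  obtain ⟨ℓ, hℓ, hℓS, A, hA, σ, hσ, k, -, hk, -⟩ := Gal.exists_frobenius_generates L g S
  have hℓN : ¬ ℓ ∣ N := fun h => hℓS (hS ℓ hℓ h)
  have hℓp : ℓ ≠ p := fun h => hℓS (h ▸ hpS)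
  set h0 := (σ ^ k)⁻¹ * g
  have hg : g = σ ^ k * h0 := (mul_inv_cancel_left _ _).symm
  have hfix : ∀ a ∈ L, h0 a = a := fun a ha => by
    show (σ ^ k)⁻¹ (g a) = a
    rw [hk a ha]
    exact (σ ^ k).symm_apply_apply a
  have hr : M.rep n g = M.rep n (σ ^ k) := by
    rw [hg, map_mul, h1 h0 fun a ha =>
      hfix a ((le_sup_left.trans (le_sup_left.trans le_sup_left) : L1 ≤ L) ha), mul_one]
  have hr' : M'.rep n g = M'.rep n (σ ^ k) := by
    rw [hg, map_mul, h1' h0 fun a ha =>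
      hfix a ((le_sup_right.trans (le_sup_left.trans le_sup_left) : L1' ≤ L) ha), mul_one]
  have hc : cyc p n g = ((ℓ : ℕ) : ZMod (p ^ n)) ^ k := by
    rw [hg, map_mul, h2 h0 fun a ha =>
      hfix a ((le_sup_right.trans le_sup_left : L2 ≤ L) ha), mul_one, map_pow,
      cyc_frobenius p n hℓ hℓp hA hσ]
  refine ⟨ℓ, hℓ, hℓN, hℓS, A, σ, k, hA, hσ, fun a ha => hfix a ((le_sup_right : L₀ ≤ L) ha), ?_,
    good_sub_mem hp M hS n g _ (M.rep_good_of_pow hG hS n hℓ hℓN hℓS hℓp hA hσ hr hc),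
    good_sub_mem hp M' _ n g _ (M'.rep_good_of_pow hG' _ n hℓ _ hℓS hℓp hA hσ hr' hc)⟩
  have := padicMap_sub_mem p (IsLocalRing.maximalIdeal O) hp n
    ((cycPadic p g : ℤ_[p]ˣ) : ℤ_[p]) ((ℓ : ℤ_[p]) ^ k)
    (by rw [← cyc_eq, hc, map_pow, map_natCast])
  rwa [map_pow, map_natCast] at this

variable [IsNoetherianRing O]

/-- `g + χ(g) g⁻¹` on the two models, paired with the trace of `ρ(g)`, lies in the joint Hecke
algebra. -/
theorem joint_trace_mem (hG : TorsionGalois N p) (hG' : TorsionGalois N' p) (hdvd : N' ∣ N)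
    {S : Finset ℕ} (hpS : p ∈ S) (hS : ∀ q, q.Prime → q ∣ N → q ∈ (↑S : Set ℕ))
    (θ : CuspForm.heckeAlgebra N 2 (↑S : Set ℕ) →+* O) (ρ : GaloisRepAdic O)
    (hρ : ∀ (ℓ : ℕ) (hℓ : ℓ.Prime) (hℓN : ¬ ℓ ∣ N) (hℓS : ℓ ∉ (↑S : Set ℕ)),
      ∀ A : ValuationSubring Qbar, A.LiesOverPrime ℓ → ∀ σ : GQ, A.IsFrobeniusAt σ ℓ →
        LinearMap.charpoly (ρ.ρ σ) =
          X ^ 2 - C (θ (CuspForm.heckeAlgebra.T hℓ hℓN hℓS)) * X + C ((ℓ : O)))
    (g : GQ) :
    ((M.repO hp g + TorsionModel.cycO hp g • M.repO hp g⁻¹,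
        M'.repO hp g + TorsionModel.cycO hp g • M'.repO hp g⁻¹,
        ρ.trace g) : Triple M M' O) ∈ jointHecke M M' hS hdvd θ ∧
      (repMat ρ g).det = TorsionModel.cycO hp g := by
  have key : ∀ n, ∃ b ∈ jointHecke M M' hS hdvd θ,
      ((M.repO hp g + TorsionModel.cycO hp g • M.repO hp g⁻¹,
        M'.repO hp g + TorsionModel.cycO hp g • M'.repO hp g⁻¹,
        ρ.trace g) : Triple M M' O) - b ∈ IsLocalRing.maximalIdeal O ^ n • (⊤ : Submodule O _) ∧
      (repMat ρ g).det - TorsionModel.cycO hp g ∈ IsLocalRing.maximalIdeal O ^ n := by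
    intro n
    obtain ⟨L3, hL3, h3⟩ := ρ.isAdicContinuous n
    obtain ⟨ℓ, hℓ, hℓN, hℓS, A, σ, k, hA, hσ, hfix, hcycO, f1, f2⟩ :=
      exists_good_approx hp M M' hG hG' hdvd hpS hS n g L3
    have hℓN' : ¬ ℓ ∣ N' := fun h => hℓN (h.trans hdvd)
    set h0 := (σ ^ k)⁻¹ * g
    have hg : g = σ ^ k * h0 := (mul_inv_cancel_left _ _).symm
    have hS' : ∀ q, q.Prime → q ∣ N' → q ∈ (↑S : Set ℕ) := fun q hq hqN => hS q hq (hqN.trans hdvd)
    set T := CuspForm.heckeAlgebra.T (N := N) (k := (2 : ℤ)) hℓ hℓN hℓS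
    set T' := CuspForm.heckeAlgebra.T (N := N') (k := (2 : ℤ)) hℓ hℓN' hℓS
    set b := powTrace T (ℓ : CuspForm.heckeAlgebra N 2 (↑S : Set ℕ)) k
    set b' := powTrace T' (ℓ : CuspForm.heckeAlgebra N' 2 (↑S : Set ℕ)) k
    refine ⟨(M.matO O hS b, M'.matO O hS' b', θ b), ?_, ?_⟩
    · have hgen : ((M.matO O hS T, M'.matO O hS' T', θ T) : Triple M M' O) ∈
          jointHecke M M' hS hdvd θ := Algebra.subset_adjoin ⟨ℓ, hℓ, hℓN, hℓS, rfl⟩
      have he : ((M.matO O hS b, M'.matO O hS' b', θ b) : Triple M M' O) =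
          powTrace ((M.matO O hS T, M'.matO O hS' T', θ T) : Triple M M' O)
              (ℓ : Triple M M' O) k := by
        refine Prod.ext ?_ (Prod.ext ?_ ?_)
        · rw [← RingHom.coe_fst, map_powTrace]
          simp [b, map_powTrace]
        · show _ = ((RingHom.fst (Matrix (Fin M'.rk) (Fin M'.rk) O) O).comp (RingHom.snd _ _))
            (powTrace ((M.matO O hS T, M'.matO O hS' T', θ T) : Triple M M' O)
                (ℓ : Triple M M' O) k)
          rw [map_powTrace, map_natCast]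
          simp [b', map_powTrace]
        · show _ = ((RingHom.snd (Matrix (Fin M'.rk) (Fin M'.rk) O) O).comp (RingHom.snd _ _))
            (powTrace ((M.matO O hS T, M'.matO O hS' T', θ T) : Triple M M' O)
                (ℓ : Triple M M' O) k)
          rw [map_powTrace, map_natCast]
          simp [b, map_powTrace]
      rw [he]
      exact powTrace_natCast_mem _ hgen ℓ k
    -- the representation
    set I := IsLocalRing.maximalIdeal O ^ n
    set π := Ideal.Quotient.mk I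
    have hτσ : (repMat ρ σ).trace = θ T ∧ (repMat ρ σ).det = (ℓ : O) := by
      have h := (repMat_charpoly ρ σ).trans (hρ ℓ hℓ hℓN hℓS A hA σ hσ)
      rw [Matrix.charpoly_fin_two] at h
      have h1 := congrArg (fun P : O[X] => P.coeff 1) h
      have h0' := congrArg (fun P : O[X] => P.coeff 0) h
      simp [coeff_X_pow, coeff_C] at h1 h0'
      exact ⟨h1, h0'⟩
    have hmap : π.mapMatrix (repMat ρ g) = π.mapMatrix (repMat ρ σ) ^ k := by
      have hnear := repMat_sub_one_mem ρ (h3 h0 hfix)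
      have hone : π.mapMatrix (repMat ρ h0) = 1 := by
        ext i j
        rw [← π.mapMatrix.map_one]
        exact Ideal.Quotient.eq.mpr (hnear i j)
      rw [hg, map_mul, map_mul, hone, mul_one, map_pow, map_pow]
    have htr : ρ.trace g - θ b ∈ I := by
      rw [← Ideal.Quotient.eq, ← trace_repMat, AddMonoidHom.map_trace π]
      change (π.mapMatrix (repMat ρ g)).trace = _
      rw [hmap, trace_pow_eq_powTrace _ (Matrix.isUnit_iff_isUnit_det _ |>.mp
        (((Group.isUnit σ).map (repMat ρ)).map π.mapMatrix))]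
      rw [map_powTrace θ, map_natCast, map_powTrace π, map_natCast, ← hτσ.1, ← RingHom.map_det,
        hτσ.2, map_natCast, AddMonoidHom.map_trace π]
      rfl
    have hdet : (repMat ρ g).det - TorsionModel.cycO hp g ∈ I := by
      have h := congrArg Matrix.det hmap
      rw [← RingHom.map_det, Matrix.det_pow, ← RingHom.map_det, hτσ.2, ← map_pow] at h
      have h' : (repMat ρ g).det - (ℓ : O) ^ k ∈ I := Ideal.Quotient.eq.mp h
      have := sub_mem h' hcycO
      rwa [sub_sub_sub_cancel_right] at this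
    exact ⟨prodMk_mem_smul_top f1 (prodMk_mem_smul_top f2 (by rwa [smul_eq_mul, Ideal.mul_top])),
      hdet⟩
  refine ⟨mem_of_forall_mem_sup (Subalgebra.toSubmodule (jointHecke M M' hS hdvd θ))
    (IsLocalRing.maximalIdeal O) (IsLocalRing.maximalIdeal.isMaximal O).ne_top _ fun n => ?_, ?_⟩
  · obtain ⟨b, hb, h, -⟩ := key n
    exact Submodule.mem_sup.mpr ⟨b, hb, _, h, add_sub_cancel _ _⟩
  · rw [← sub_eq_zero]
    refine IsHausdorff.haus (IsAdicComplete.toIsHausdorff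
      (I := IsLocalRing.maximalIdeal O) (M := O)) _ fun n => ?_
    rw [SModEq.zero, smul_eq_mul, Ideal.mul_top]
    obtain ⟨b, -, -, h⟩ := key n
    exact h

/-- `g + χ(g) g⁻¹` on the two models lies in the algebra generated by the pairs of Hecke
operators. -/
theorem joint_pair_mem (hG : TorsionGalois N p) (hG' : TorsionGalois N' p) (hdvd : N' ∣ N)
    {S : Finset ℕ} (hpS : p ∈ S) (hS : ∀ q, q.Prime → q ∣ N → q ∈ (↑S : Set ℕ)) (g : GQ) :
    ((M.repO hp g + TorsionModel.cycO hp g • M.repO hp g⁻¹,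
        M'.repO hp g + TorsionModel.cycO hp g • M'.repO hp g⁻¹) :
      Matrix (Fin M.rk) (Fin M.rk) O × Matrix (Fin M'.rk) (Fin M'.rk) O) ∈
      Algebra.adjoin O {x : Matrix (Fin M.rk) (Fin M.rk) O × Matrix (Fin M'.rk) (Fin M'.rk) O |
        ∃ (ℓ : ℕ) (hℓ : ℓ.Prime) (hℓN : ¬ ℓ ∣ N) (hℓS : ℓ ∉ (↑S : Set ℕ)),
        x = (M.matO O hS (CuspForm.heckeAlgebra.T hℓ hℓN hℓS),
          M'.matO O (fun q hq hqN => hS q hq (hqN.trans hdvd))
            (CuspForm.heckeAlgebra.T hℓ (fun h => hℓN (h.trans hdvd)) hℓS))} := by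
  have hS' : ∀ q, q.Prime → q ∣ N' → q ∈ (↑S : Set ℕ) := fun q hq hqN => hS q hq (hqN.trans hdvd)
  set G : Set (Matrix (Fin M.rk) (Fin M.rk) O × Matrix (Fin M'.rk) (Fin M'.rk) O) :=
    {x | ∃ (ℓ : ℕ) (hℓ : ℓ.Prime) (hℓN : ¬ ℓ ∣ N) (hℓS : ℓ ∉ (↑S : Set ℕ)),
      x = (M.matO O hS (CuspForm.heckeAlgebra.T hℓ hℓN hℓS),
        M'.matO O hS' (CuspForm.heckeAlgebra.T hℓ (fun h => hℓN (h.trans hdvd)) hℓS))}
  refine mem_of_forall_mem_sup (Subalgebra.toSubmodule (Algebra.adjoin O G))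
    (IsLocalRing.maximalIdeal O) (IsLocalRing.maximalIdeal.isMaximal O).ne_top _ fun n => ?_
  obtain ⟨ℓ, hℓ, hℓN, hℓS, A, σ, k, -, -, -, -, f1, f2⟩ :=
    exists_good_approx hp M M' hG hG' hdvd hpS hS n g ⊥
  set T := CuspForm.heckeAlgebra.T (N := N) (k := (2 : ℤ)) hℓ hℓN hℓS
  set T' := CuspForm.heckeAlgebra.T (N := N') (k := (2 : ℤ)) hℓ (fun h => hℓN (h.trans hdvd)) hℓS
  set x₀ : Matrix (Fin M.rk) (Fin M.rk) O × Matrix (Fin M'.rk) (Fin M'.rk) O :=
    (M.matO O hS T, M'.matO O hS' T')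
  have e : ((M.matO O hS (powTrace T (ℓ : CuspForm.heckeAlgebra N 2 (↑S : Set ℕ)) k),
      M'.matO O hS' (powTrace T' (ℓ : CuspForm.heckeAlgebra N' 2 (↑S : Set ℕ)) k)) :
        Matrix (Fin M.rk) (Fin M.rk) O × Matrix (Fin M'.rk) (Fin M'.rk) O) =
      powTrace x₀ (ℓ : Matrix (Fin M.rk) (Fin M.rk) O × Matrix (Fin M'.rk) (Fin M'.rk) O) k := by
    refine Prod.ext ?_ ?_
    · rw [← RingHom.coe_fst, map_powTrace]; simp [x₀, map_powTrace]
    · rw [← RingHom.coe_snd, map_powTrace]; simp [x₀, map_powTrace]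
  refine Submodule.mem_sup.mpr ⟨_, powTrace_natCast_mem (Algebra.adjoin O G)
    (Algebra.subset_adjoin (⟨ℓ, hℓ, hℓN, hℓS, rfl⟩ : x₀ ∈ G)) ℓ k, _, ?_, add_sub_cancel _ _⟩
  rw [← e]
  exact prodMk_mem_smul_top f1 f2

end Fermat.Agent.TwoComponent
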