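import Mathlib.NumberTheory.ModularForms.Bounds
import Mathlib.NumberTheory.ModularForms.CongruenceSubgroups
import Fermat.Prelude.Def_ModularForm_HeckeOperatorForms

/-!
# `± (q + 1)` is not an eigenvalue of `T_q`

If `q ∤ N`, no nonzero cusp form of weight two and level `N` is an eigenvector of `T_q` with
eigenvalue of absolute value `q + 1`: the function `|f(τ)| Im τ` attains a maximum.
-/

noncomputable section

open UpperHalfPlane CongruenceSubgroup Filter Topology ModularGroup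
open scoped MatrixGroups ModularForm Modular

namespace Fermat.Agent.TwoComponent

variable {N : ℕ} [NeZero N]

/-- `|f(τ)| Im τ`. -/
def absHeight (f : CuspForm (Gamma0 N) 2) (τ : ℍ) : ℝ := ‖f τ‖ * τ.im

omit [NeZero N] in
theorem absHeight_nonneg (f : CuspForm (Gamma0 N) 2) (τ : ℍ) : 0 ≤ absHeight f τ :=
  mul_nonneg (norm_nonneg _) τ.im_pos.le

omit [NeZero N] in
theorem absHeight_eq_sqrt (f : CuspForm (Gamma0 N) 2) (τ : ℍ) :
    absHeight f τ = Real.sqrt ‖petersson 2 f f τ‖ := by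
  rw [← Real.sqrt_sq (absHeight_nonneg f τ)]
  congr 1
  simp [absHeight, petersson, Real.norm_of_nonneg τ.im_pos.le]
  ring

theorem absHeight_smul (f : CuspForm (Gamma0 N) 2) {γ : SL(2, ℤ)} (hγ : γ ∈ Gamma0 N) (τ : ℍ) :
    absHeight f (γ • τ) = absHeight f τ := by
  rw [absHeight_eq_sqrt, absHeight_eq_sqrt]
  congr 1
  exact SlashInvariantFormClass.norm_petersson_smul
    (Γ := (Gamma0 N).map (Matrix.SpecialLinearGroup.mapGL ℝ)) ⟨γ, hγ, rfl⟩

open ConjAct Pointwise in
theorem absHeight_tendsto_zero (f : CuspForm (Gamma0 N) 2) (g : SL(2, ℤ)) :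
    Tendsto (fun τ => absHeight f (g • τ)) atImInfty (𝓝 0) := by
  let Γ := (Gamma0 N).map (Matrix.SpecialLinearGroup.mapGL ℝ)
  have : ((toConjAct (g : GL (Fin 2) ℝ)⁻¹) • Γ).IsArithmetic := by
    simpa [(show Rat.castHom ℝ = algebraMap ℚ ℝ by rfl), map_inv,
        Matrix.SpecialLinearGroup.map_mapGL]
      using! Subgroup.IsArithmetic.conj Γ (Matrix.SpecialLinearGroup.mapGL ℚ g)⁻¹
  have h : IsZeroAtImInfty (fun τ => petersson 2 f f (g • τ)) := by
    simp_rw [← UpperHalfPlane.petersson_slash_SL]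
    exact (CuspFormClass.zero_at_infty (CuspForm.translate f g)).petersson_isZeroAtImInfty_left 2 _
      (CuspForm.translate f g)
  have h2 : Tendsto (fun τ => Real.sqrt ‖petersson 2 f f (g • τ)‖) atImInfty (𝓝 0) := by
    simpa using (tendsto_zero_iff_norm_tendsto_zero.mp h).sqrt
  exact h2.congr fun τ => (absHeight_eq_sqrt f _).symm

omit [NeZero N] in
theorem continuous_absHeight (f : CuspForm (Gamma0 N) 2) : Continuous (absHeight f) :=
  (CuspFormClass.holo f).continuous.norm.mul continuous_im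

/-- `|f(τ)| Im τ` attains a positive maximum. -/
theorem exists_absHeight_max (f : CuspForm (Gamma0 N) 2) {τ₁ : ℍ} (h1 : 0 < absHeight f τ₁) :
    ∃ τ₀, 0 < absHeight f τ₀ ∧ ∀ τ, absHeight f τ ≤ absHeight f τ₀ := by
  have : Fintype (SL(2, ℤ) ⧸ Gamma0 N) := Subgroup.fintypeQuotientOfFiniteIndex
  have key : ∀ τ, ∃ (c : SL(2, ℤ) ⧸ Gamma0 N) (z : ℍ),
      z ∈ 𝒟 ∧ absHeight f τ = absHeight f (c.out⁻¹ • z) := by
    intro τ
    obtain ⟨g, hg⟩ := exists_smul_mem_fd τ
    obtain ⟨γ, hγ⟩ := QuotientGroup.mk_out_eq_mul (Gamma0 N) g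
    refine ⟨g, g • τ, hg, ?_⟩
    rw [hγ, mul_inv_rev, mul_smul, inv_smul_smul, absHeight_smul f (inv_mem γ.2)]
  have hev : ∀ c : SL(2, ℤ) ⧸ Gamma0 N, ∀ᶠ z in atImInfty,
      absHeight f (c.out⁻¹ • z) < absHeight f τ₁ :=
    fun c => (absHeight_tendsto_zero f _).eventually_lt_const h1
  obtain ⟨Y, hY⟩ := (atImInfty_mem _).mp (eventually_all.mpr hev)
  let K : Set ℍ := ⋃ c : SL(2, ℤ) ⧸ Gamma0 N, (fun z => c.out⁻¹ • z) '' truncatedFundamentalDomain Y
  have hK : IsCompact K := isCompact_iUnion fun c =>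
    (isCompact_truncatedFundamentalDomain Y).image (by simp only [sl_moeb]; fun_prop)
  have hmem : ∀ τ, absHeight f τ₁ ≤ absHeight f τ → ∃ x ∈ K, absHeight f τ = absHeight f x := by
    intro τ hτ
    obtain ⟨c, z, hz, he⟩ := key τ
    refine ⟨_, Set.mem_iUnion.mpr ⟨c, z, ⟨hz, le_of_lt ?_⟩, rfl⟩, he⟩
    by_contra hh
    exact absurd (hY z (not_lt.mp hh) c) (not_lt.mpr (hτ.trans he.le))
  obtain ⟨x, hx, hxe⟩ := hmem τ₁ le_rfl
  obtain ⟨τ₀, -, hmax⟩ := hK.exists_isMaxOn ⟨x, hx⟩ (continuous_absHeight f).continuousOn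
  refine ⟨τ₀, (hxe ▸ h1).trans_le (hmax hx), fun τ => ?_⟩
  rcases le_total (absHeight f τ₁) (absHeight f τ) with h | h
  · obtain ⟨y, hy, hye⟩ := hmem τ h
    exact hye.trans_le (hmax hy)
  · exact h.trans (hxe.trans_le (hmax hx))

/-- No cusp form of weight two has `T_q`-eigenvalue of absolute value `q + 1`. -/
theorem eq_zero_of_heckeTLin_eq {q : ℕ} (hq : q.Prime) (hqN : ¬ q ∣ N)
    (f : CuspForm (Gamma0 N) 2) {c : ℂ} (hc : ‖c‖ = (q : ℝ) + 1)
    (h : CuspForm.heckeTLin 2 hq hqN f = c • f) : f = 0 := by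
  by_contra hf
  obtain ⟨τ₁, hτ₁⟩ : ∃ τ, f τ ≠ 0 := by
    by_contra hh
    push Not at hh
    exact hf (DFunLike.ext _ _ fun τ => hh τ)
  have h1 : 0 < absHeight f τ₁ := mul_pos (norm_pos_iff.mpr hτ₁) τ₁.im_pos
  obtain ⟨τ₀, hC, hmax⟩ := exists_absHeight_max f h1
  set C := absHeight f τ₀
  have hq0 : (0 : ℝ) < q := Nat.cast_pos.mpr hq.pos
  have step : ∀ τ, C ≤ absHeight f τ → C ≤ absHeight f (ModularForm.heckeDiagMatrix q • τ) := by
    intro τ hτ
    have hv : c * f τ = (q : ℂ)⁻¹ * ∑ j ∈ Finset.range q, f (ModularForm.heckeMatrix q j • τ)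
        + (q : ℂ) * f (ModularForm.heckeDiagMatrix q • τ) := by
      have h2 : ModularForm.heckeT 2 q f τ = c * f τ := by
        rw [← CuspForm.heckeTLin_apply_apply 2 hq hqN, h]; rfl
      rw [← h2, ModularForm.heckeT_apply 2 hq.ne_zero]
      norm_num
    have him : ∀ j, (ModularForm.heckeMatrix q j • τ).im = τ.im / q := fun j => by
      rw [← UpperHalfPlane.coe_im, ModularForm.coe_heckeMatrix_smul hq.ne_zero,
          Complex.div_natCast_im]
      simp
    have himD : (ModularForm.heckeDiagMatrix q • τ).im = q * τ.im := by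
      rw [← UpperHalfPlane.coe_im, ModularForm.coe_heckeDiagMatrix_smul hq.ne_zero]
      simp
    have hn : ((q : ℝ) + 1) * absHeight f τ ≤
        ∑ j ∈ Finset.range q, absHeight f (ModularForm.heckeMatrix q j • τ)
          + absHeight f (ModularForm.heckeDiagMatrix q • τ) := by
      have h3 := mul_le_mul_of_nonneg_right
        ((congrArg norm hv).le.trans (norm_add_le _ _)) τ.im_pos.le
      rw [norm_mul, hc, norm_mul, norm_mul, norm_inv, Complex.norm_natCast, mul_assoc] at h3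
      refine h3.trans ?_
      rw [add_mul]
      refine add_le_add ?_ (le_of_eq ?_)
      · refine le_trans (mul_le_mul_of_nonneg_right
          (mul_le_mul_of_nonneg_left (norm_sum_le _ _) (by positivity)) τ.im_pos.le) (le_of_eq ?_)
        rw [Finset.mul_sum, Finset.sum_mul]
        refine Finset.sum_congr rfl fun j _ => ?_
        rw [absHeight, him]
        field_simp
      · rw [absHeight, himD]
        ring
    have hs : ∑ j ∈ Finset.range q, absHeight f (ModularForm.heckeMatrix q j • τ) ≤ q * C := by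
      refine (Finset.sum_le_sum fun j _ => hmax _).trans ?_
      simp
    have := mul_le_mul_of_nonneg_left hτ (by positivity : (0 : ℝ) ≤ (q : ℝ) + 1)
    linarith
  have hiter : ∀ k : ℕ, C ≤ absHeight f ((ModularForm.heckeDiagMatrix q • ·)^[k] τ₀) ∧
      ((ModularForm.heckeDiagMatrix q • ·)^[k] τ₀).im = (q : ℝ) ^ k * τ₀.im := by
    intro k
    induction k with
    | zero => simp [C]
    | succ k ih =>
      rw [Function.iterate_succ_apply']
      refine ⟨step _ ih.1, ?_⟩
      rw [← UpperHalfPlane.coe_im, ModularForm.coe_heckeDiagMatrix_smul hq.ne_zero]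
      rw [Complex.mul_im, Complex.natCast_re, Complex.natCast_im, zero_mul, add_zero,
        UpperHalfPlane.coe_im, ih.2]
      ring
  have hlim := absHeight_tendsto_zero f 1
  simp only [one_smul] at hlim
  obtain ⟨Y, hY⟩ := (atImInfty_mem _).mp (hlim.eventually_lt_const hC)
  obtain ⟨k, hk⟩ := pow_unbounded_of_one_lt (Y / τ₀.im)
    (show (1 : ℝ) < q by exact_mod_cast hq.one_lt)
  have hbig : Y ≤ ((ModularForm.heckeDiagMatrix q • ·)^[k] τ₀).im := by
    rw [(hiter k).2]
    exact ((div_lt_iff₀ τ₀.im_pos).mp hk).le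
  exact absurd (hY _ hbig) (not_lt.mpr (hiter k).1)

end Fermat.Agent.TwoComponent
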