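import Mathlib.FieldTheory.IsAlgClosed.AlgebraicClosure
import Mathlib.NumberTheory.Padics.PadicNumbers
import Fermat.Prelude.Def_CuspForm_HeckeEvalForms
import Fermat.Prelude.Def_CuspForm_HeckeLocal
import Fermat.Prelude.Def_CuspForm_Newforms
import Fermat.Agent.Attach.EigenChar
import Fermat.Agent.Attach.Eigvec
import Fermat.Agent.SquareLevel.GlueEigen
import Fermat.Agent.TwoComponent.NewPart.PairSpan

/-!
# Hecke characters and eigenforms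

Characters of the Hecke algebra at good primes come from eigenforms, eigensystems agreeing at
almost all primes agree at all good primes, and a newform is separated from lower levels by a
Hecke polynomial.
-/

noncomputable section

open ModularFormClass CongruenceSubgroup

namespace Fermat.Agent.TwoComponent

open Fermat.Agent.Attach

variable {N : ℕ} [NeZero N]

local notation "GQ" => (AlgebraicClosure ℚ ≃ₐ[ℚ] AlgebraicClosure ℚ)

variable {N' : ℕ} [NeZero N']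

/-- Eigensystems of two levels agreeing at almost all primes agree at every prime `ℓ₀ ≠ p` not
dividing the level. -/
theorem qCoeff_eq_of_almost_all {p : ℕ} [Fact p.Prime] (I : JacobianInputs N p)
    (I' : JacobianInputs N' p) (hdvd : N' ∣ N) {f : CuspForm (Gamma0 N) 2}
    (hf : f.IsNormalizedEigenform) {g : CuspForm (Gamma0 N') 2} (hg : g.IsNormalizedEigenform)
    (S : Finset ℕ) (h : ∀ ℓ : ℕ, ℓ.Prime → ¬ ℓ ∣ N → ℓ ∉ S → qCoeff g ℓ = qCoeff f ℓ)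
    {ℓ₀ : ℕ} (hℓ₀ : ℓ₀.Prime) (hℓ₀N : ¬ ℓ₀ ∣ N) (hℓ₀p : ℓ₀ ≠ p) :
    qCoeff g ℓ₀ = qCoeff f ℓ₀ := by
  classical
  set M := I.model
  set M' := I'.model
  have hS0 : ∀ q, q.Prime → q ∣ N → q ∈ ({q | q ∣ N} : Set ℕ) := fun q _ h => h
  have hS0' : ∀ q, q.Prime → q ∣ N' → q ∈ ({q | q ∣ N'} : Set ℕ) := fun q _ h => h
  obtain ⟨χ, hχ⟩ := exists_eigenChar hf hS0
  obtain ⟨χ', hχ'⟩ := exists_eigenChar hg hS0'
  -- algebraic values
  let Qc := algebraicClosure ℚ ℂ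
  have halgInt : ∀ x : ℂ, IsIntegral ℤ x → x ∈ Qc :=
    fun x hx => mem_algebraicClosure_iff.mpr (hx.tower_top (A := ℚ)).isAlgebraic
  let χQ : AnemicAlg N →+* Qc := χ.codRestrict Qc fun t =>
    halgInt _ ((isIntegral_of_faithful M.hecke M.hecke_injective t).map χ.toIntAlgHom)
  let χQ' : AnemicAlg N' →+* Qc := χ'.codRestrict Qc fun t =>
    halgInt _ ((isIntegral_of_faithful M'.hecke M'.hecke_injective t).map χ'.toIntAlgHom)
  let K := AlgebraicClosure ℚ_[p]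
  have : Algebra.IsAlgebraic ℚ Qc := algebraicClosure.isAlgebraic ℚ ℂ
  let e : Qc →ₐ[ℚ] K := IsAlgClosed.lift
  let j : ℤ_[p] →+* K := (algebraMap ℚ_[p] K).comp (algebraMap ℤ_[p] ℚ_[p])
  obtain ⟨v, hv0, hv⟩ := exists_eigvec M.mat M.mat_injective (e.toRingHom.comp χQ)
  obtain ⟨v', hv0', hv'⟩ := exists_eigvec M'.mat M'.mat_injective (e.toRingHom.comp χQ')
  have hp : (p : ℤ_[p]) ∈ IsLocalRing.maximalIdeal ℤ_[p] := by
    rw [PadicInt.maximalIdeal_eq_span_p]; exact Ideal.mem_span_singleton_self _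
  let S1 : Finset ℕ := S ∪ N.primeFactors ∪ {p}
  have hS1 : ∀ q, q.Prime → q ∣ N → q ∈ (↑S1 : Set ℕ) := fun q hq hqN => by
    simp [S1, hq, hqN, NeZero.ne N]
  have hS1' : ∀ q, q.Prime → q ∣ N' → q ∈ (↑S1 : Set ℕ) :=
    fun q hq hqN => hS1 q hq (hqN.trans hdvd)
  -- the common scalar
  let P : Subalgebra ℤ_[p] (Matrix (Fin M.rk) (Fin M.rk) ℤ_[p] ×
      Matrix (Fin M'.rk) (Fin M'.rk) ℤ_[p]) :=
    Algebra.adjoin ℤ_[p] {x | ∃ (ℓ : ℕ) (hℓ : ℓ.Prime) (hℓN : ¬ ℓ ∣ N) (hℓS : ℓ ∉ (↑S1 : Set ℕ)),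
      x = (M.matO ℤ_[p] hS1 (CuspForm.heckeAlgebra.T hℓ hℓN hℓS),
        M'.matO ℤ_[p] hS1' (CuspForm.heckeAlgebra.T hℓ (fun h => hℓN (h.trans hdvd)) hℓS))}
  have hscal : ∀ x ∈ P, ∃ c : K, (x.1.map j).mulVec v = c • v ∧ (x.2.map j).mulVec v' = c • v' := by
    intro x hx
    induction hx using Algebra.adjoin_induction with
    | mem x hx =>
      obtain ⟨ℓ, hℓ, hℓN, hℓS, rfl⟩ := hx
      have hℓN' : ¬ ℓ ∣ N' := fun h => hℓN (h.trans hdvd)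
      have e1 : (M.matO ℤ_[p] hS1 (CuspForm.heckeAlgebra.T hℓ hℓN hℓS)).map j =
          (M.mat (CuspForm.heckeAlgebra.T hℓ hℓN hℓN)).map (Int.castRingHom K) :=
        Matrix.ext fun a b => map_intCast j _
      have e2 : (M'.matO ℤ_[p] hS1' (CuspForm.heckeAlgebra.T hℓ hℓN' hℓS)).map j =
          (M'.mat (CuspForm.heckeAlgebra.T hℓ hℓN' hℓN')).map (Int.castRingHom K) :=
        Matrix.ext fun a b => map_intCast j _
      refine ⟨e (χQ (CuspForm.heckeAlgebra.T hℓ hℓN hℓN)), ?_, ?_⟩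
      · rw [e1]; exact hv _
      · rw [e2]
        refine (hv' _).trans ?_
        refine congrArg (fun c : Qc => e c • v') (Subtype.ext ?_)
        show χ' _ = χ _
        rw [hχ ℓ hℓ hℓN hℓN, hχ' ℓ hℓ hℓN' hℓN']
        exact h ℓ hℓ hℓN fun hh => hℓS (by simp [S1, hh])
    | algebraMap a =>
      refine ⟨j a, ?_, ?_⟩ <;>
      · simp [Algebra.algebraMap_eq_smul_one, Matrix.map_smul', Matrix.smul_mulVec]
    | add x y _ _ hx hy =>
      obtain ⟨a, ha, ha'⟩ := hx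
      obtain ⟨b, hb, hb'⟩ := hy
      refine ⟨a + b, ?_, ?_⟩ <;>
      · simp [Matrix.map_add, Matrix.add_mulVec, ha, hb, ha', hb', add_smul]
    | mul x y _ _ hx hy =>
      obtain ⟨a, ha, ha'⟩ := hx
      obtain ⟨b, hb, hb'⟩ := hy
      refine ⟨a * b, ?_, ?_⟩ <;>
      · simp [Matrix.map_mul, ← Matrix.mulVec_mulVec, Matrix.mulVec_smul, ha, hb, ha', hb',
          smul_smul, mul_comm]
  -- Frobenius at `ℓ₀`
  obtain ⟨A, σ, hA, hσ⟩ := Gal.exists_liesOverPrime_isFrobeniusAt hℓ₀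
  have hℓ₀N' : ¬ ℓ₀ ∣ N' := fun h => hℓ₀N (h.trans hdvd)
  have hmem : ((M.repO hp σ + TorsionModel.cycO hp σ • M.repO hp σ⁻¹,
      M'.repO hp σ + TorsionModel.cycO hp σ • M'.repO hp σ⁻¹) :
        Matrix (Fin M.rk) (Fin M.rk) ℤ_[p] × Matrix (Fin M'.rk) (Fin M'.rk) ℤ_[p]) ∈ P :=
    joint_pair_mem hp M M' I.galois I'.galois hdvd (by simp [S1]) hS1 σ
  obtain ⟨c, hc, hc'⟩ := hscal _ hmem
  have hΦ := (M.repO_frobenius hp I.galois hS0 hℓ₀ hℓ₀N hℓ₀N hℓ₀p hA hσ).2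
  have hΦ' := (M'.repO_frobenius hp I'.galois hS0' hℓ₀ hℓ₀N' hℓ₀N' hℓ₀p hA hσ).2
  rw [hΦ] at hc
  rw [hΦ'] at hc'
  have e1 : (M.matO ℤ_[p] hS0 (CuspForm.heckeAlgebra.T hℓ₀ hℓ₀N hℓ₀N)).map j =
      (M.mat (CuspForm.heckeAlgebra.T hℓ₀ hℓ₀N hℓ₀N)).map (Int.castRingHom K) :=
    Matrix.ext fun a b => map_intCast j _
  have e2 : (M'.matO ℤ_[p] hS0' (CuspForm.heckeAlgebra.T hℓ₀ hℓ₀N' hℓ₀N')).map j =
      (M'.mat (CuspForm.heckeAlgebra.T hℓ₀ hℓ₀N' hℓ₀N')).map (Int.castRingHom K) :=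
    Matrix.ext fun a b => map_intCast j _
  rw [e1, hv] at hc
  rw [e2, hv'] at hc'
  have h3 : e (χQ (CuspForm.heckeAlgebra.T hℓ₀ hℓ₀N hℓ₀N)) =
      e (χQ' (CuspForm.heckeAlgebra.T hℓ₀ hℓ₀N' hℓ₀N')) :=
    (smul_left_injective K hv0 hc).trans (smul_left_injective K hv0' hc').symm
  have h4 := congrArg Subtype.val (e.injective h3)
  rw [← hχ ℓ₀ hℓ₀ hℓ₀N hℓ₀N, ← hχ' ℓ₀ hℓ₀ hℓ₀N' hℓ₀N']
  exact h4.symm

/-- Evaluation of polynomials in the Hecke operators at good primes. -/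
def heckePolyEval (N : ℕ) [NeZero N] (S : Set ℕ) (M : ℕ) (h : ∀ ℓ, ¬ ℓ ∣ M → ¬ ℓ ∣ N) :
    MvPolynomial {ℓ : ℕ // ℓ.Prime ∧ ¬ ℓ ∣ M ∧ ℓ ∉ S} ℤ →+* CuspForm.heckeAlgebra N 2 S :=
  MvPolynomial.eval₂Hom (Int.castRingHom _) fun ℓ =>
    CuspForm.heckeAlgebra.T ℓ.2.1 (h _ ℓ.2.2.1) ℓ.2.2.2

theorem heckePolyEval_surjective {N : ℕ} [NeZero N] {S : Set ℕ} {M : ℕ}
    (h : ∀ ℓ, ¬ ℓ ∣ M → ¬ ℓ ∣ N) (hNS : ∀ q, q ∣ N → q.Prime → q ∈ S)
    (hMS : ∀ q, q ∣ M → q.Prime → q ∈ S) : Function.Surjective (heckePolyEval N S M h) :=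
  fun t => forall_mem_of_T_mem hNS (RingHom.id _) (heckePolyEval N S M h).range
    (fun ℓ hℓ hℓN hℓS =>
      ⟨MvPolynomial.X ⟨ℓ, hℓ, fun hh => hℓS (hMS ℓ hh hℓ), hℓS⟩, by simp [heckePolyEval]⟩) t

/-- A newform is separated from a lower level by a Hecke polynomial. -/
theorem exists_killing {M : ℕ} [NeZero M] {g : CuspForm (Gamma0 M) 2} (hg : g.IsNewform)
    {M' : ℕ} [NeZero M'] (hdvd : M' ∣ M) (hne : M' ≠ M) {S : Finset ℕ}
    (hMS : ∀ q : ℕ, q.Prime → q ∣ M → q ∈ S)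
    (hin : ∀ p : ℕ, [Fact p.Prime] → Nonempty (JacobianInputs M p) ∧ Nonempty (JacobianInputs M' p))
    (chig : CuspForm.heckeAlgebra M 2 (↑S : Set ℕ) →+* ℂ)
    (hchig : ∀ (ℓ : ℕ) (hℓ : ℓ.Prime) (hℓM : ¬ ℓ ∣ M) (hℓS : ℓ ∉ (↑S : Set ℕ)),
      chig (CuspForm.heckeAlgebra.T hℓ hℓM hℓS) = qCoeff g ℓ) :
    ∃ P, heckePolyEval M' (↑S : Set ℕ) M (fun _ h hh => h (hh.trans hdvd)) P = 0 ∧
      chig (heckePolyEval M (↑S : Set ℕ) M (fun _ h => h) P) ≠ 0 := by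
  set e := heckePolyEval M (↑S : Set ℕ) M (fun _ h => h) with he
  set e' := heckePolyEval M' (↑S : Set ℕ) M (fun _ h hh => h (hh.trans hdvd)) with he'
  by_contra hno
  push Not at hno
  have hsurj : Function.Surjective e' := heckePolyEval_surjective _
    (fun q hq hq' => hMS q hq' (hq.trans hdvd)) (fun q hq hq' => hMS q hq' hq)
  let χ' : CuspForm.heckeAlgebra M' 2 (↑S : Set ℕ) →+* ℂ :=
    RingHom.liftOfSurjective e' hsurj ⟨chig.comp e, fun P hP => hno P hP⟩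
  obtain ⟨f, hf, hfc⟩ := SquareLevel.exists_eigenform_of_character χ'
  refine hg.2 M' hdvd hne ⟨f, hf, fun ℓ hℓ hℓM => ?_⟩
  have hS : ∀ r : ℕ, r.Prime → ¬ r ∣ M → r ∉ S → qCoeff f r = qCoeff g r := by
    intro r hr hrM hrS
    rw [hfc r hr (fun h => hrM (h.trans hdvd)) hrS, ← hchig r hr hrM hrS]
    have h1 := RingHom.liftOfRightInverse_comp_apply e' (Function.surjInv hsurj)
      (Function.rightInverse_surjInv hsurj) ⟨chig.comp e, fun P hP => hno P hP⟩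
      (MvPolynomial.X ⟨r, hr, hrM, hrS⟩)
    simpa [χ', he, he', heckePolyEval] using h1
  by_cases hℓ2 : ℓ = 2
  · have : Fact (Nat.Prime 3) := ⟨Nat.prime_three⟩
    obtain ⟨⟨I⟩, ⟨I'⟩⟩ := hin 3
    exact qCoeff_eq_of_almost_all I I' hdvd hg.1 hf S hS hℓ hℓM (by omega)
  · obtain ⟨⟨I⟩, ⟨I'⟩⟩ := hin 2
    exact qCoeff_eq_of_almost_all I I' hdvd hg.1 hf S hS hℓ hℓM hℓ2

end Fermat.Agent.TwoComponent
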