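import Mathlib.LinearAlgebra.Matrix.ToLin
import Fermat.Agent.Attach.Model
import Fermat.Agent.Ihara.RaiseBase
import Fermat.Agent.TwoComponent.NewPart.Bound

/-!
# The old subspace inside the torsion models

The degeneracy map `Hom_cl(Γ₀(N), ℤ)² → Hom_cl(Γ₀(N q), ℤ)` as an injective matrix commuting with
the Hecke operators, and `T_q ± (q + 1)` is injective at level `N`.
-/

noncomputable section

open CongruenceSubgroup ModularCurve Matrix

namespace Fermat.Agent.TwoComponent

open Fermat.Agent.Attach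

variable (N q : ℕ) [NeZero N] [NeZero q] (p : ℕ) [NeZero p]

/-- `T_q ± (q + 1)` is injective on the lattice. -/
theorem latticeHecke_sub_injective {N q : ℕ} [NeZero N] (hq : q.Prime) (hqN : ¬ q ∣ N) (c : ℤ)
    (hc : |c| = (q : ℤ) + 1) (v : clLattice N)
    (h : latticeHecke N (CuspForm.heckeAlgebra.T hq hqN hqN - (c : AnemicAlg N)) v = 0) :
    v = 0 := by
  apply periodCoords_injective N
  have h2 := periodCoords_latticeAct N (CuspForm.heckeAlgebra.T hq hqN hqN - (c : AnemicAlg N)) v
  rw [show latticeAct N _ v = 0 from h, map_zero] at h2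
  rw [map_zero]
  have hc' : ‖(c : ℂ)‖ = (q : ℝ) + 1 := by
    rw [Complex.norm_intCast, ← Int.cast_abs, hc]; push_cast; rfl
  have key : ∀ w : CuspForm (Gamma0 N) 2,
      ((CuspForm.heckeAlgebra.T hq hqN hqN - (c : AnemicAlg N) : AnemicAlg N) :
          Module.End ℂ _) w = 0 →
        w = 0 := fun w hw => eq_zero_of_heckeTLin_eq hq hqN w hc' (sub_eq_zero.mp (by
    refine Eq.trans ?_ hw
    simp [Int.cast_smul_eq_zsmul]))
  exact Prod.ext (key _ (congrArg Prod.fst h2).symm) (key _ (congrArg Prod.snd h2).symm)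

/-- The degeneracy map `i` on the torsion models, as a matrix. -/
def oldMat : Matrix (Fin (torsionModel (N * q) p).rk)
    (Fin (torsionModel N p).rk ⊕ Fin (torsionModel N p).rk) ℤ :=
  LinearMap.toMatrix ((torsionModel N p).bas.prod (torsionModel N p).bas)
    (torsionModel (N * q) p).bas (Ihara.clI ℤ N q)

variable {N q}

theorem clI_injective (hq : q.Prime) (hqN : ¬ q ∣ N) : Function.Injective (Ihara.clI ℤ N q) := by
  refine (injective_iff_map_eq_zero _).mpr fun z hz => ?_
  obtain ⟨x, y⟩ := z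
  have h := Ihara.clJ_clI hq hqN x y
  rw [hz, map_zero, Prod.ext_iff] at h
  obtain ⟨h1, h2⟩ := h
  have hT : ∀ v : clLattice N,
      latticeHecke N (CuspForm.heckeAlgebra.T hq hqN hqN) v = Ihara.clT ℤ N q v :=
    fun v => Subtype.ext (latticeHecke_T N hq hqN v)
  have e : ∀ (c : ℤ) (v : clLattice N),
      latticeHecke N (CuspForm.heckeAlgebra.T hq hqN hqN - (c : AnemicAlg N)) v =
        Ihara.clT ℤ N q v - c • v := fun c v => by
    rw [map_sub, map_intCast, LinearMap.sub_apply, hT]
    rfl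
  have hsum : x + y = 0 := by
    refine latticeHecke_sub_injective hq hqN (-((q : ℤ) + 1))
      (by rw [abs_neg, abs_of_nonneg]; positivity) _ ?_
    rw [e, map_add]
    have := congrArg₂ (· + ·) h1 h2
    simp only [Prod.fst_zero, Prod.snd_zero, add_zero] at this
    rw [this]
    simp only [← natCast_zsmul x, ← natCast_zsmul y, Nat.cast_add, Nat.cast_one]
    module
  have hdiff : x - y = 0 := by
    refine latticeHecke_sub_injective hq hqN ((q : ℤ) + 1) (abs_of_nonneg (by positivity)) _ ?_
    rw [e, map_sub]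
    have := congrArg₂ (fun a b => b - a) h1 h2
    simp only [Prod.fst_zero, Prod.snd_zero, sub_zero] at this
    rw [this]
    simp only [← natCast_zsmul x, ← natCast_zsmul y, Nat.cast_add, Nat.cast_one]
    module
  have hxy : x = y := sub_eq_zero.mp hdiff
  subst hxy
  have : Module.Free ℤ (clLattice N) := (torsionModel N 1).instFree
  have hx : x = 0 := by
    refine (smul_eq_zero.mp (show (2 : ℤ) • x = 0 by rw [two_smul]; exact hsum)).resolve_left ?_
    norm_num
  rw [hx]; rfl

/-- The old map is injective. -/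
theorem oldMat_injective (hq : q.Prime) (hqN : ¬ q ∣ N) :
    Function.Injective (oldMat N q p).mulVec := by
  intro v w h
  set b := (torsionModel N p).bas.prod (torsionModel N p).bas
  have key : ∀ u, (torsionModel (N * q) p).bas.equivFun (Ihara.clI ℤ N q (b.equivFun.symm u)) =
      (oldMat N q p).mulVec u := fun u => by
    conv_rhs =>
      rw [show u = b.equivFun (b.equivFun.symm u) from (b.equivFun.apply_symm_apply u).symm]
    exact (LinearMap.toMatrix_mulVec_repr b (torsionModel (N * q) p).bas (Ihara.clI ℤ N q) _).symm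
  rw [← key, ← key] at h
  exact b.equivFun.symm.injective (clI_injective hq hqN ((LinearEquiv.injective _) h))

/-- The old map commutes with the Hecke operators at good primes. -/
theorem mat_mul_oldMat {ℓ : ℕ} (hℓ : ℓ.Prime) (hℓN : ¬ ℓ ∣ N) (hℓM : ¬ ℓ ∣ N * q) :
    (torsionModel (N * q) p).mat (CuspForm.heckeAlgebra.T hℓ hℓM hℓM) * oldMat N q p =
      oldMat N q p * Matrix.fromBlocks ((torsionModel N p).mat (CuspForm.heckeAlgebra.T hℓ hℓN hℓN))
        0 0 ((torsionModel N p).mat (CuspForm.heckeAlgebra.T hℓ hℓN hℓN)) := by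
  have : NeZero ℓ := ⟨hℓ.ne_zero⟩
  have hℓq : ¬ ℓ ∣ q := fun h => hℓM (h.trans (dvd_mul_left q N))
  set b := (torsionModel N p).bas
  set f' := (torsionModel N p).hecke (CuspForm.heckeAlgebra.T hℓ hℓN hℓN)
  have hT : ∀ (K : ℕ) [NeZero K] (hK : ¬ ℓ ∣ K) (v : clLattice K),
      latticeHecke K (CuspForm.heckeAlgebra.T hℓ hK hK) v = Ihara.clT ℤ K ℓ v :=
    fun K _ hK v => Subtype.ext (latticeHecke_T K hℓ hK v)
  have hcomm : ((torsionModel (N * q) p).hecke (CuspForm.heckeAlgebra.T hℓ hℓM hℓM)).comp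
      (Ihara.clI ℤ N q) = (Ihara.clI ℤ N q).comp (f'.prodMap f') := by
    refine LinearMap.ext fun z => ?_
    show latticeHecke (N * q) _ (Ihara.clI ℤ N q z) =
      Ihara.clI ℤ N q (latticeHecke N _ z.1, latticeHecke N _ z.2)
    rw [hT (N * q) hℓM, hT N hℓN, hT N hℓN]
    exact Ihara.clT_clI hℓ hℓN hℓq z
  have h := congrArg (LinearMap.toMatrix (b.prod b) (torsionModel (N * q) p).bas) hcomm
  refine ((LinearMap.toMatrix_comp (b.prod b) (torsionModel (N * q) p).bas
    (torsionModel (N * q) p).bas _ (Ihara.clI ℤ N q)).symm.trans (h.trans ?_))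
  refine (LinearMap.toMatrix_comp (b.prod b) (b.prod b) (torsionModel (N * q) p).bas
    (Ihara.clI ℤ N q) (f'.prodMap f')).trans ?_
  exact congrArg (oldMat N q p * ·) (LinearMap.toMatrix_prodMap b b f' f')

omit [NeZero q] in
/-- `± (q + 1)` is not a root of the characteristic polynomial of `T_q`. -/
theorem charpoly_eval_ne_zero (hq : q.Prime) (hqN : ¬ q ∣ N) (c : ℤ) (hc : |c| = (q : ℤ) + 1) :
    ((torsionModel N p).mat (CuspForm.heckeAlgebra.T hq hqN hqN)).charpoly.eval c ≠ 0 := by
  set M := torsionModel N p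
  intro h
  rw [Matrix.eval_charpoly] at h
  obtain ⟨v, hv0, hv⟩ := Matrix.exists_mulVec_eq_zero_iff.mpr h
  refine hv0 (M.bas.equivFun.symm.injective ?_)
  rw [map_zero]
  refine latticeHecke_sub_injective hq hqN c hc (M.bas.equivFun.symm v) ?_
  apply M.bas.equivFun.injective
  refine Eq.trans ?_ (map_zero M.bas.equivFun).symm
  refine Eq.trans ?_ (show
      -((Matrix.scalar (Fin M.rk) c - M.mat (CuspForm.heckeAlgebra.T hq hqN hqN)).mulVec v) = 0 by
    rw [hv, neg_zero])
  refine Eq.trans (LinearMap.toMatrix_mulVec_repr M.bas M.bas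
    (M.hecke (CuspForm.heckeAlgebra.T hq hqN hqN - (c : AnemicAlg N)))
    (M.bas.equivFun.symm v)).symm ?_
  rw [show (M.bas.repr (M.bas.equivFun.symm v) : Fin M.rk → ℤ) = v from
    M.bas.equivFun.apply_symm_apply v]
  show (M.mat (CuspForm.heckeAlgebra.T hq hqN hqN - (c : AnemicAlg N))).mulVec v = _
  rw [map_sub, map_intCast, ← Matrix.neg_mulVec, neg_sub]
  congr 2

end Fermat.Agent.TwoComponent
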