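import Fermat.Agent.Attach.Model
import Fermat.Agent.Attach.Point
import Fermat.Agent.TwoComponent.NewPart.Counting
import Fermat.Agent.TwoComponent.NewPart.Eigen
import Fermat.Agent.TwoComponent.NewPart.OldPair
import Fermat.Agent.TwoComponent.NewPart.PairSpan

/-!
# Frobenius at a prime exactly dividing the level

At `q ∥ M` the representation of a newform has Frobenius eigenvalues `±1`, `±q`: this is deduced
from the Galois inputs and the bound on the Frobenius image.
-/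

noncomputable section

open Polynomial CongruenceSubgroup ModularCurve

namespace Fermat.Agent.TwoComponent

open Fermat.Agent.Attach

local notation "Qbar" => AlgebraicClosure ℚ
local notation "GQ" => (AlgebraicClosure ℚ ≃ₐ[ℚ] AlgebraicClosure ℚ)

section Pieces

variable {N q : ℕ} [NeZero N] [NeZero q] {p : ℕ} [Fact p.Prime]
  {M : TorsionModel (N * q) p} {M' : TorsionModel N p}
  {O : Type} [CommRing O] {S : Set ℕ} {hS : ∀ r, r.Prime → r ∣ N * q → r ∈ S}
  {θ : CuspForm.heckeAlgebra (N * q) 2 S →+* O}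

theorem commute_of_mem_joint [IsLocalRing O] [IsAdicComplete (IsLocalRing.maximalIdeal O) O]
    (hp : (p : O) ∈ IsLocalRing.maximalIdeal O) (hG : TorsionGalois (N * q) p) (σ : GQ)
    {b : Triple M M' O} (hb : b ∈ jointHecke M M' hS (dvd_mul_right N q) θ) :
    Commute (M.repO hp σ) b.1 := by
  induction hb using Algebra.adjoin_induction with
  | mem x hx =>
    obtain ⟨ℓ, hℓ, hℓN, hℓS, rfl⟩ := hx
    exact M.repO_commute hp hG hS σ _
  | algebraMap a => exact Algebra.commute_algebraMap_right a _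
  | add x y _ _ hx hy => exact hx.add_right hy
  | mul x y _ _ hx hy => exact hx.mul_right hy

omit [Fact (Nat.Prime p)] in
theorem mul_old_of_mem_joint (old : Matrix (Fin M.rk) (Fin M'.rk ⊕ Fin M'.rk) ℤ)
    (holdT : ∀ (ℓ : ℕ) (hℓ : ℓ.Prime) (hℓN : ¬ ℓ ∣ N) (hℓM : ¬ ℓ ∣ N * q),
      M.mat (CuspForm.heckeAlgebra.T hℓ hℓM hℓM) * old =
        old * Matrix.fromBlocks (M'.mat (CuspForm.heckeAlgebra.T hℓ hℓN hℓN)) 0 0
          (M'.mat (CuspForm.heckeAlgebra.T hℓ hℓN hℓN)))
    {b : Triple M M' O} (hb : b ∈ jointHecke M M' hS (dvd_mul_right N q) θ) :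
    b.1 * old.map (Int.castRingHom O) =
      old.map (Int.castRingHom O) * Matrix.fromBlocks b.2.1 0 0 b.2.1 := by
  induction hb using Algebra.adjoin_induction with
  | mem x hx =>
    obtain ⟨ℓ, hℓ, hℓN, hℓS, rfl⟩ := hx
    have h := congrArg (fun X : Matrix _ _ ℤ => X.map (Int.castRingHom O))
      (holdT ℓ hℓ (fun hh => hℓN (hh.trans (dvd_mul_right N q))) hℓN)
    simp only [Matrix.map_mul, Matrix.fromBlocks_map, Matrix.map_zero _ (map_zero _)] at h
    exact h
  | algebraMap a =>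
    have e : Matrix.fromBlocks (algebraMap O (Matrix (Fin M'.rk) (Fin M'.rk) O) a) 0 0
        (algebraMap O (Matrix (Fin M'.rk) (Fin M'.rk) O) a) = a • 1 := by
      rw [Algebra.algebraMap_eq_smul_one, ← Matrix.fromBlocks_one, Matrix.fromBlocks_smul,
          smul_zero]
    show algebraMap O (Matrix (Fin M.rk) (Fin M.rk) O) a * _ = _ * Matrix.fromBlocks _ 0 0 _
    rw [show ((algebraMap O (Triple M M' O) a).2).1 =
      algebraMap O (Matrix (Fin M'.rk) (Fin M'.rk) O) a from rfl, e,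
      Algebra.algebraMap_eq_smul_one, Matrix.smul_mul, Matrix.one_mul, Matrix.mul_smul,
      Matrix.mul_one]
  | add x y _ _ hx hy =>
    rw [Prod.fst_add, Matrix.add_mul, hx, hy, ← Matrix.mul_add, Prod.snd_add, Prod.fst_add,
      Matrix.fromBlocks_add, add_zero]
  | mul x y _ _ hx hy =>
    rw [Prod.fst_mul, Matrix.mul_assoc, hy, ← Matrix.mul_assoc, hx, Matrix.mul_assoc, Prod.snd_mul,
      Prod.fst_mul, Matrix.fromBlocks_multiply]
    simp

omit [Fact (Nat.Prime p)] in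
theorem eval_mem_joint (hS' : ∀ r, r.Prime → r ∣ N → r ∈ S)
    (Q : MvPolynomial {ℓ : ℕ // ℓ.Prime ∧ ¬ ℓ ∣ N * q ∧ ℓ ∉ S} ℤ) :
    ((M.matO O hS (heckePolyEval (N * q) S (N * q) (fun _ h => h) Q),
      M'.matO O hS' (heckePolyEval N S (N * q) (fun _ h hh => h (hh.mul_right q)) Q),
      θ (heckePolyEval (N * q) S (N * q) (fun _ h => h) Q)) : Triple M M' O) ∈
      jointHecke M M' hS (dvd_mul_right N q) θ := by
  induction Q using MvPolynomial.induction_on with
  | C a =>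
    have e : ((M.matO O hS (heckePolyEval (N * q) S (N * q) (fun _ h => h) (MvPolynomial.C a)),
        M'.matO O hS' (heckePolyEval N S (N * q) (fun _ h hh => h (hh.mul_right q))
            (MvPolynomial.C a)),
        θ (heckePolyEval (N * q) S (N * q) (fun _ h => h) (MvPolynomial.C a))) : Triple M M' O) =
          (a : Triple M M' O) := by
      refine Prod.ext ?_ (Prod.ext ?_ ?_) <;> simp [heckePolyEval]
    rw [e]
    exact intCast_mem _ a
  | add f g hf hg =>
    have := add_mem hf hg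
    simpa using this
  | mul_X f ℓ hf =>
    have hgen : ((M.matO O hS (CuspForm.heckeAlgebra.T ℓ.2.1 ℓ.2.2.1 ℓ.2.2.2),
        M'.matO O hS' (CuspForm.heckeAlgebra.T ℓ.2.1
          (fun h => ℓ.2.2.1 (h.trans (dvd_mul_right N q))) ℓ.2.2.2),
        θ (CuspForm.heckeAlgebra.T ℓ.2.1 ℓ.2.2.1 ℓ.2.2.2)) : Triple M M' O) ∈
          jointHecke M M' hS (dvd_mul_right N q) θ :=
      Algebra.subset_adjoin ⟨_, ℓ.2.1, ℓ.2.2.1, ℓ.2.2.2, rfl⟩
    have := mul_mem hf hgen
    simpa [heckePolyEval] using this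

variable {K : Type} [Field K] (j : O →+* K)

/-- Endomorphisms over `K` from matrices over `O`. -/
def endK (k : ℕ) : Matrix (Fin k) (Fin k) O →+* Module.End K (Fin k → K) :=
  (Matrix.toLinAlgEquiv' : Matrix (Fin k) (Fin k) K ≃ₐ[K] _).toRingEquiv.toRingHom.comp j.mapMatrix

theorem endK_apply (k : ℕ) (X : Matrix (Fin k) (Fin k) O) (v : Fin k → K) :
    endK j k X v = (X.map j).mulVec v := rfl

theorem endK_smul (k : ℕ) (a : O) (X : Matrix (Fin k) (Fin k) O) :
    endK j k (a • X) = j a • endK j k X := by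
  refine LinearMap.ext fun v => ?_
  rw [LinearMap.smul_apply, endK_apply, endK_apply, ← Matrix.smul_mulVec]
  congr 1
  ext i l
  exact map_mul j _ _

/-- The vectors over `K` on which the joint Hecke algebra acts through its character. -/
def jointEigen (M : TorsionModel (N * q) p) (M' : TorsionModel N p)
    (hS : ∀ r, r.Prime → r ∣ N * q → r ∈ S) (θ : CuspForm.heckeAlgebra (N * q) 2 S →+* O) :
    Submodule K (Fin M.rk → K) where
  carrier := {v | ∀ x ∈ jointHecke M M' hS (dvd_mul_right N q) θ,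
    endK j M.rk x.1 v = j x.2.2 • v}
  add_mem' {x y} hx hy z hz := by rw [map_add, hx z hz, hy z hz, smul_add]
  zero_mem' z _ := by rw [map_zero, smul_zero]
  smul_mem' c {x} hx z hz := by rw [map_smul, hx z hz, smul_comm]

omit [Fact (Nat.Prime p)] in
/-- It is enough to check membership of `jointEigen` on the Hecke operators at good primes. -/
theorem mem_jointEigen_of_T {v : Fin M.rk → K}
    (hv : ∀ (ℓ : ℕ) (hℓ : ℓ.Prime) (hℓN : ¬ ℓ ∣ N * q) (hℓS : ℓ ∉ S),
      endK j M.rk (M.matO O hS (CuspForm.heckeAlgebra.T hℓ hℓN hℓS)) v =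
        j (θ (CuspForm.heckeAlgebra.T hℓ hℓN hℓS)) • v) :
    v ∈ jointEigen j M M' hS θ := by
  intro x hx
  induction hx using Algebra.adjoin_induction with
  | mem x hx =>
    obtain ⟨ℓ, hℓ, hℓN, hℓS, rfl⟩ := hx
    exact hv ℓ hℓ hℓN hℓS
  | algebraMap a =>
    show endK j M.rk (algebraMap O (Matrix (Fin M.rk) (Fin M.rk) O) a) v = _
    rw [Algebra.algebraMap_eq_smul_one, endK_smul, map_one, LinearMap.smul_apply,
      Module.End.one_apply]
    rfl
  | add x y _ _ hx hy =>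
    rw [Prod.fst_add, map_add, LinearMap.add_apply, hx, hy, Prod.snd_add, Prod.snd_add, map_add,
      add_smul]
  | mul x y _ _ hx hy =>
    rw [Prod.fst_mul, map_mul, Module.End.mul_apply, hy, map_smul, hx, Prod.snd_mul,
      Prod.snd_mul, map_mul, smul_smul, mul_comm (j y.2.2)]

omit [Fact (Nat.Prime p)] in
/-- The joint Hecke algebra has a common eigenvector with the given character. -/
theorem jointEigen_ne_bot : jointEigen j M M' hS θ ≠ ⊥ := by
  obtain ⟨v, hv0, hv⟩ := exists_eigvec (M.mat.comp (toAnemic hS))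
    (M.mat_injective.comp (toAnemic_injective hS)) (j.comp θ)
  refine (Submodule.ne_bot_iff _).mpr ⟨v, mem_jointEigen_of_T j fun ℓ hℓ hℓN hℓS => ?_, hv0⟩
  rw [endK_apply, show (M.matO O hS (CuspForm.heckeAlgebra.T hℓ hℓN hℓS)).map j =
    ((M.mat.comp (toAnemic hS)) (CuspForm.heckeAlgebra.T hℓ hℓN hℓS)).map (Int.castRingHom K) from
      Matrix.ext fun i l => map_intCast j _]
  exact hv _

/-- The Galois action preserves `jointEigen`. -/
theorem endK_repO_mem_jointEigen [IsLocalRing O] [IsAdicComplete (IsLocalRing.maximalIdeal O) O]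
    (hp : (p : O) ∈ IsLocalRing.maximalIdeal O) (hG : TorsionGalois (N * q) p) (σ : GQ)
    {v : Fin M.rk → K} (hv : v ∈ jointEigen j M M' hS θ) :
    endK j M.rk (M.repO hp σ) v ∈ jointEigen j M M' hS θ := by
  intro x hx
  rw [← Module.End.mul_apply, ← ((commute_of_mem_joint hp hG σ hx).map (endK j M.rk)).eq,
    Module.End.mul_apply, hv x hx, map_smul]

omit [Fact (Nat.Prime p)] in
/-- The joint Hecke algebra on the old subspace. -/
theorem endK_mulVec_old {old : Matrix (Fin M.rk) (Fin M'.rk ⊕ Fin M'.rk) ℤ}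
    (holdT : ∀ (ℓ : ℕ) (hℓ : ℓ.Prime) (hℓN : ¬ ℓ ∣ N) (hℓM : ¬ ℓ ∣ N * q),
      M.mat (CuspForm.heckeAlgebra.T hℓ hℓM hℓM) * old =
        old * Matrix.fromBlocks (M'.mat (CuspForm.heckeAlgebra.T hℓ hℓN hℓN)) 0 0
          (M'.mat (CuspForm.heckeAlgebra.T hℓ hℓN hℓN)))
    {x : Triple M M' O} (hx : x ∈ jointHecke M M' hS (dvd_mul_right N q) θ)
    (w : Fin M'.rk ⊕ Fin M'.rk → K) :
    endK j M.rk x.1 ((old.map (Int.castRingHom K)).mulVec w) =
      (old.map (Int.castRingHom K)).mulVec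
        (((Matrix.fromBlocks x.2.1 0 0 x.2.1).map j).mulVec w) := by
  have e : old.map (Int.castRingHom K) = (old.map (Int.castRingHom O)).map j :=
    Matrix.ext fun i l => (map_intCast j _).symm
  rw [e, endK_apply, Matrix.mulVec_mulVec, Matrix.mulVec_mulVec, ← Matrix.map_mul,
    ← Matrix.map_mul, mul_old_of_mem_joint old holdT hx]

/-- Over a field the sextic in a Frobenius has rank at most twice the old rank. -/
theorem finrank_range_sextic_le [IsLocalRing O] [IsAdicComplete (IsLocalRing.maximalIdeal O) O]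
    [IsDomain O] [CharZero O] (hj : Function.Injective j)
    (hp : (p : O) ∈ IsLocalRing.maximalIdeal O) (hgeo : FrobeniusImageBound (N * q) N q p)
    (M : TorsionModel (N * q) p) (M' : TorsionModel N p)
    {A : ValuationSubring Qbar} (hA : A.LiesOverPrime q) {σ : GQ} (hσ : A.IsFrobeniusAt σ q) :
    Module.finrank K (LinearMap.range (sexticEnd (q : K) (endK j M.rk (M.repO hp σ)))) ≤
      M'.rk + M'.rk := by
  set φ := padicMap p (IsLocalRing.maximalIdeal O) hp
  have h : ((sexticMat (q : ℤ_[p]) (M.repPadic σ)).map (j.comp φ)).rank ≤ M'.rk + M'.rk :=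
    rank_map_le_of_card_image _ (fun n => by
      refine (natCard_range_sextic_le M n q σ).trans ((hgeo A hA σ hσ n).trans (le_of_eq ?_))
      rw [natCard_jTors M' n, ← pow_mul]
      congr 1
      ring) _ (hj.comp (injective_padicMap φ))
  rw [sexticMat_map, map_natCast] at h
  show Module.finrank K (LinearMap.range (sexticEnd (q : K)
    (Matrix.toLinAlgEquiv' ((M.repO hp σ).map j)))) ≤ _
  rw [sexticEnd_toLin]
  exact h

end Pieces

/-- At `q` exactly dividing the level `N q` a Frobenius `σ` satisfies the hypotheses of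
`eigen_eq_of_rank` for the old subspace, with `jointEigen` in the `trace ρ(σ)`-eigenspace of
`Φ = σ + q σ⁻¹`. -/
theorem exists_frobenius_relations {N q : ℕ} [NeZero N] [NeZero q] (hq : q.Prime) (hqN : ¬ q ∣ N)
    {p : ℕ} [Fact p.Prime] (hqp : q ≠ p) (hG : TorsionGalois (N * q) p) (hG' : TorsionGalois N p)
    {M : TorsionModel (N * q) p} {M' : TorsionModel N p}
    {old : Matrix (Fin M.rk) (Fin M'.rk ⊕ Fin M'.rk) ℤ}
    (holdT : ∀ (ℓ : ℕ) (hℓ : ℓ.Prime) (hℓN : ¬ ℓ ∣ N) (hℓM : ¬ ℓ ∣ N * q),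
      M.mat (CuspForm.heckeAlgebra.T hℓ hℓM hℓM) * old =
        old * Matrix.fromBlocks (M'.mat (CuspForm.heckeAlgebra.T hℓ hℓN hℓN)) 0 0
          (M'.mat (CuspForm.heckeAlgebra.T hℓ hℓN hℓN)))
    (hev : ∀ c : ℤ, |c| = (q : ℤ) + 1 →
      (M'.mat (CuspForm.heckeAlgebra.T hq hqN hqN)).charpoly.eval c ≠ 0)
    (hgeo : FrobeniusImageBound (N * q) N q p)
    {S : Finset ℕ} (hpS : p ∈ S) (hS : ∀ r, r.Prime → r ∣ N * q → r ∈ (↑S : Set ℕ))
    {O : Type} [CommRing O] [IsDomain O] [IsDiscreteValuationRing O]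
    [IsAdicComplete (IsLocalRing.maximalIdeal O) O] [CharZero O]
    (hp : (p : O) ∈ IsLocalRing.maximalIdeal O)
    {K : Type} [Field K] [CharZero K] (j : O →+* K) (hj : Function.Injective j)
    (θ : CuspForm.heckeAlgebra (N * q) 2 (↑S : Set ℕ) →+* O) (ρ : GaloisRepAdic O)
    (hρ : ∀ (ℓ : ℕ) (hℓ : ℓ.Prime) (hℓN : ¬ ℓ ∣ N * q) (hℓS : ℓ ∉ (↑S : Set ℕ)),
      ∀ A : ValuationSubring Qbar, A.LiesOverPrime ℓ → ∀ σ : GQ, A.IsFrobeniusAt σ ℓ →
        LinearMap.charpoly (ρ.ρ σ) =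
          X ^ 2 - C (θ (CuspForm.heckeAlgebra.T hℓ hℓN hℓS)) * X + C ((ℓ : O)))
    {A : ValuationSubring Qbar} (hA : A.LiesOverPrime q) {σ : GQ} (hσ : A.IsFrobeniusAt σ q) :
    LinearMap.charpoly (ρ.ρ σ) = X ^ 2 - C (ρ.trace σ) * X + C (q : O) ∧
      ∃ (Φ : Module.End K (Fin M.rk → K)) (Φ' : Module.End K (Fin M'.rk ⊕ Fin M'.rk → K))
        (μ : K[X]),
        endK j M.rk (M.repO hp σ) * endK j M.rk (M.repO hp σ) =
          Φ * endK j M.rk (M.repO hp σ) - (q : K) • 1 ∧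
        Commute (endK j M.rk (M.repO hp σ)) Φ ∧
        (∀ w, Φ ((old.map (Int.castRingHom K)).mulVecLin w) =
          (old.map (Int.castRingHom K)).mulVecLin (Φ' w)) ∧
        aeval Φ' μ = 0 ∧ μ.eval ((q : K) + 1) ≠ 0 ∧ μ.eval (-((q : K) + 1)) ≠ 0 ∧
        Module.finrank K (LinearMap.range (sexticEnd (q : K) (endK j M.rk (M.repO hp σ)))) ≤
          Module.finrank K (Fin M'.rk ⊕ Fin M'.rk → K) ∧
        ∀ v ∈ jointEigen j M M' hS θ, Φ v = j (ρ.trace σ) • v := by
  classical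
  obtain ⟨hmem, hdet⟩ := joint_trace_mem hp M M' hG hG' (dvd_mul_right N q) hpS hS θ ρ hρ σ
  obtain ⟨hcyc, hΦ'⟩ := M'.repO_frobenius hp hG' (fun r _ h => h) hq hqN hqN hqp hA hσ
  rw [hcyc] at hmem hdet
  rw [hcyc] at hΦ'
  rw [hΦ'] at hmem
  set R := M.repO hp σ with hR
  set A' := M'.mat (CuspForm.heckeAlgebra.T hq hqN hqN)
  have h1 : M.repO hp σ⁻¹ * R = 1 := by rw [hR, ← map_mul, inv_mul_cancel, map_one]
  have hRR : R * R = (R + (q : O) • M.repO hp σ⁻¹) * R - (q : O) • 1 := by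
    rw [add_mul, Matrix.smul_mul, h1, add_sub_cancel_right]
  have hRΦ : Commute R (R + (q : O) • M.repO hp σ⁻¹) := by
    have h2 : Commute R (M.repO hp σ⁻¹) := by
      show _ * _ = _ * _
      rw [h1, hR, ← map_mul, mul_inv_cancel, map_one]
    exact (Commute.refl R).add_right (h2.smul_right _)
  set BlK := (Matrix.fromBlocks A' 0 0 A').map (Int.castRingHom K) with hBlK
  have hblock : (Matrix.fromBlocks (M'.matO O (fun r _ h => h) (CuspForm.heckeAlgebra.T hq hqN hqN))
      0 0 (M'.matO O (fun r _ h => h) (CuspForm.heckeAlgebra.T hq hqN hqN))).map j = BlK := by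
    rw [hBlK, Matrix.fromBlocks_map, Matrix.fromBlocks_map, Matrix.map_zero _ (map_zero j),
      Matrix.map_zero _ (map_zero (Int.castRingHom K))]
    have e : (M'.matO O (fun r _ h => h) (CuspForm.heckeAlgebra.T hq hqN hqN)).map j =
        A'.map (Int.castRingHom K) := Matrix.ext fun i l => map_intCast j _
    rw [e]
  set μ := (Matrix.fromBlocks A' 0 0 A').charpoly.map (Int.castRingHom K) with hμdef
  have hμev : ∀ c : ℤ, |c| = (q : ℤ) + 1 → μ.eval (c : K) ≠ 0 := by
    intro c hc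
    rw [hμdef, Polynomial.eval_intCast_map, Matrix.charpoly_fromBlocks_zero₂₁, Polynomial.eval_mul]
    exact Int.cast_ne_zero.mpr (mul_ne_zero (hev c hc) (hev c hc))
  refine ⟨?_, endK j M.rk (R + (q : O) • M.repO hp σ⁻¹), Matrix.toLinAlgEquiv' BlK, μ, ?_,
    hRΦ.map (endK j M.rk), fun w => ?_, ?_, ?_, ?_, ?_, fun v hv => ?_⟩
  · rw [← repMat_charpoly]
    exact charpoly_of_det_trace _ (trace_repMat ρ σ) hdet
  · rw [← map_mul (endK j M.rk), ← map_mul (endK j M.rk), hRR, map_sub, endK_smul,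
      map_one (endK j M.rk), map_natCast]
  · show endK j M.rk _ ((old.map (Int.castRingHom K)).mulVec w) =
      (old.map (Int.castRingHom K)).mulVec (BlK.mulVec w)
    rw [← hblock]
    exact endK_mulVec_old j holdT hmem w
  · rw [hμdef, ← Matrix.charpoly_map, ← hBlK, aeval_algHom_apply, Matrix.aeval_self_charpoly,
      map_zero]
  · simpa using hμev ((q : ℤ) + 1) (abs_of_nonneg (by positivity))
  · simpa using hμev (-((q : ℤ) + 1)) (by rw [abs_neg, abs_of_nonneg]; positivity)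
  · rw [Module.finrank_fintype_fun_eq_card, Fintype.card_sum, Fintype.card_fin]
    exact finrank_range_sextic_le j hj hp hgeo M M' hA hσ
  · have h := hv _ hmem
    dsimp only at h
    exact h

/-- **The Frobenius alternative at a prime exactly dividing the level**: the eigenvalues are `1, q`
or `-1, -q`. -/
theorem charpoly_frobenius_at_bad {N q : ℕ} [NeZero N] [NeZero q] (hq : q.Prime) (hqN : ¬ q ∣ N)
    {p : ℕ} [Fact p.Prime] (hqp : q ≠ p) (hG : TorsionGalois (N * q) p) (hG' : TorsionGalois N p)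
    (M : TorsionModel (N * q) p) (M' : TorsionModel N p)
    (old : Matrix (Fin M.rk) (Fin M'.rk ⊕ Fin M'.rk) ℤ) (hold0 : Function.Injective old.mulVec)
    (holdT : ∀ (ℓ : ℕ) (hℓ : ℓ.Prime) (hℓN : ¬ ℓ ∣ N) (hℓM : ¬ ℓ ∣ N * q),
      M.mat (CuspForm.heckeAlgebra.T hℓ hℓM hℓM) * old =
        old * Matrix.fromBlocks (M'.mat (CuspForm.heckeAlgebra.T hℓ hℓN hℓN)) 0 0
          (M'.mat (CuspForm.heckeAlgebra.T hℓ hℓN hℓN)))
    (hev : ∀ c : ℤ, |c| = (q : ℤ) + 1 →
      (M'.mat (CuspForm.heckeAlgebra.T hq hqN hqN)).charpoly.eval c ≠ 0)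
    (hgeo : FrobeniusImageBound (N * q) N q p)
    {S : Finset ℕ} (hpS : p ∈ S) (hS : ∀ r, r.Prime → r ∣ N * q → r ∈ (↑S : Set ℕ))
    {O : Type} [CommRing O] [IsDomain O] [IsDiscreteValuationRing O]
    [IsAdicComplete (IsLocalRing.maximalIdeal O) O] [CharZero O]
    (hp : (p : O) ∈ IsLocalRing.maximalIdeal O)
    (θ : CuspForm.heckeAlgebra (N * q) 2 (↑S : Set ℕ) →+* O)
    (P : MvPolynomial {ℓ : ℕ // ℓ.Prime ∧ ¬ ℓ ∣ N * q ∧ ℓ ∉ (↑S : Set ℕ)} ℤ)
    (hP0 : heckePolyEval N (↑S : Set ℕ) (N * q) (fun _ h hh => h (hh.mul_right q)) P = 0)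
    (hP1 : θ (heckePolyEval (N * q) (↑S : Set ℕ) (N * q) (fun _ h => h) P) ≠ 0)
    (ρ : GaloisRepAdic O)
    (hρ : ∀ (ℓ : ℕ) (hℓ : ℓ.Prime) (hℓN : ¬ ℓ ∣ N * q) (hℓS : ℓ ∉ (↑S : Set ℕ)),
      ∀ A : ValuationSubring Qbar, A.LiesOverPrime ℓ → ∀ σ : GQ, A.IsFrobeniusAt σ ℓ →
        LinearMap.charpoly (ρ.ρ σ) =
          X ^ 2 - C (θ (CuspForm.heckeAlgebra.T hℓ hℓN hℓS)) * X + C ((ℓ : O)))
    {A : ValuationSubring Qbar} (hA : A.LiesOverPrime q) {σ : GQ} (hσ : A.IsFrobeniusAt σ q) :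
    LinearMap.charpoly (ρ.ρ σ) = X ^ 2 - C ((q : O) + 1) * X + C ((q : O)) ∨
      LinearMap.charpoly (ρ.ρ σ) = X ^ 2 + C ((q : O) + 1) * X + C ((q : O)) := by
  classical
  have hS' : ∀ r, r.Prime → r ∣ N → r ∈ (↑S : Set ℕ) := fun r hr h =>
    hS r hr (h.trans (dvd_mul_right N q))
  have hB := eval_mem_joint (M := M) (M' := M') (hS := hS) (θ := θ) hS' P
  rw [hP0, map_zero] at hB
  let K := AlgebraicClosure (FractionRing O)
  let jO : O →+* K :=
    (algebraMap (FractionRing O) K).comp (algebraMap O (FractionRing O))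
  have hjO : Function.Injective jO :=
    (algebraMap (FractionRing O) K).injective.comp (IsFractionRing.injective O _)
  obtain ⟨hcp, Φ, Φ', μ, hR, hcomm, hΦI, hμ, hμ1, hμ2, hrank, hΦE⟩ :=
    exists_frobenius_relations hq hqN hqp hG hG' holdT hev hgeo hpS hS hp jO hjO θ ρ hρ hA hσ
  set b := θ (heckePolyEval (N * q) (↑S : Set ℕ) (N * q) (fun _ h => h) P)
  set B := M.matO O hS (heckePolyEval (N * q) (↑S : Set ℕ) (N * q) (fun _ h => h) P)
  have hBI : ∀ w, endK jO M.rk B ((old.map (Int.castRingHom K)).mulVecLin w) = 0 := fun w => by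
    refine (endK_mulVec_old jO holdT hB w).trans ?_
    simp
  have hBR : Commute (endK jO M.rk B) (endK jO M.rk (M.repO hp σ)) :=
    ((commute_of_mem_joint hp hG σ hB).map (endK jO M.rk)).symm
  have hb0 : jO b ≠ 0 := fun h => hP1 (hjO (h.trans (map_zero jO).symm))
  have hBE : ∀ v ∈ jointEigen jO M M' hS θ, endK jO M.rk B v = jO b • v := fun v hv => by
    have h := hv _ hB
    dsimp only at h
    exact h
  have key := eigen_eq_of_rank (K := K) (q := (q : K)) (b := jO b) (t := jO (ρ.trace σ))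
    (Nat.cast_ne_zero.mpr hq.ne_zero) (old.map (Int.castRingHom K)).mulVecLin
    (mulVec_map_injective old hold0) hR hcomm hΦI μ hμ hμ1 hμ2 hrank hBI hBR hb0 _
    (fun v hv => endK_repO_mem_jointEigen jO hp hG σ hv) hBE hΦE (jointEigen_ne_bot jO)
  rcases key with h | h
  · left
    rw [hcp, hjO (h.trans (by simp : _ = jO ((q : O) + 1)))]
  · right
    rw [hcp, hjO (h.trans (by simp : _ = jO (-((q : O) + 1)))), map_neg, neg_mul, sub_neg_eq_add]

/-- A representation attached to a newform with the Frobenius eigenvalues at the primes exactly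
dividing the level, from the Galois inputs and the bound on the Frobenius image. -/
theorem exists_galoisRepAdic_of_inputs
    (hgal : ∀ (N p : ℕ) [NeZero N] [Fact p.Prime], TorsionGalois N p)
    (hgeo : ∀ (N q p : ℕ) [NeZero N] [NeZero q] [Fact p.Prime], q.Prime → ¬ q ∣ N → q ≠ p →
      FrobeniusImageBound (N * q) N q p)
    {M : ℕ} [NeZero M] {g : CuspForm (CongruenceSubgroup.Gamma0 M) 2} (hg : g.IsNewform)
    (lam : ℕ) [Fact lam.Prime] (S : Finset ℕ)
    (O' : Type) [CommRing O'] [IsDomain O'] [IsDiscreteValuationRing O']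
    [IsAdicComplete (IsLocalRing.maximalIdeal O') O'] [Finite (IsLocalRing.ResidueField O')]
    [CharZero O'] (hlamO' : (lam : O') ∈ IsLocalRing.maximalIdeal O')
    (chig : CuspForm.heckeAlgebra M 2 (↑S : Set ℕ) →+* ℂ)
    (hchig : ∀ (ℓ : ℕ) (hℓ : ℓ.Prime) (hℓM : ¬ ℓ ∣ M) (hℓS : ℓ ∉ (↑S : Set ℕ)),
      chig (CuspForm.heckeAlgebra.T hℓ hℓM hℓS) = ModularFormClass.qCoeff g ℓ)
    (iota : chig.range →+* O')
    (hlamS : lam ∈ S) (hMS : ∀ q : ℕ, q.Prime → q ∣ M → q ∈ S) :
    ∃ (O'' : Type) (_ : CommRing O'') (_ : IsDomain O'') (_ : IsDiscreteValuationRing O'')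
      (_ : IsAdicComplete (IsLocalRing.maximalIdeal O'') O'')
      (_ : Finite (IsLocalRing.ResidueField O''))
      (_ : CharZero O'') (_ : Algebra O' O'') (_ : Module.Finite O' O'')
      (_ : IsLocalHom (algebraMap O' O'')),
      Function.Injective (algebraMap O' O'') ∧
      ∃ ρ : GaloisRepAdic O'',
        (∀ (ℓ : ℕ) (hℓ : ℓ.Prime) (hℓM : ¬ ℓ ∣ M) (hℓS : ℓ ∉ (↑S : Set ℕ)),
          ∀ A : ValuationSubring Qbar, A.LiesOverPrime ℓ →
            ∀ σ : GQ, A.IsFrobeniusAt σ ℓ →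
              LinearMap.charpoly (ρ.ρ σ) =
                X ^ 2 - C (algebraMap O' O''
                    ((iota.comp chig.rangeRestrict) (CuspForm.heckeAlgebra.T hℓ hℓM hℓS))) * X
                  + C ((ℓ : O''))) ∧
        (∀ q : ℕ, q.Prime → q ≠ lam → q ∣ M → ¬ q ^ 2 ∣ M →
          ∀ A : ValuationSubring Qbar, A.LiesOverPrime q →
            ∀ σ : GQ, A.IsFrobeniusAt σ q →
              LinearMap.charpoly (ρ.ρ σ) = X ^ 2 - C ((q : O'') + 1) * X + C ((q : O'')) ∨
              LinearMap.charpoly (ρ.ρ σ) = X ^ 2 + C ((q : O'') + 1) * X + C ((q : O''))) := by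
  have : NeZero lam := ⟨(Fact.out : lam.Prime).ne_zero⟩
  have hin : ∀ (N p : ℕ) [NeZero N] [Fact p.Prime], Nonempty (JacobianInputs N p) := fun N p _ _ =>
    haveI : NeZero p := ⟨(Fact.out : p.Prime).ne_zero⟩
    ⟨{ model := torsionModel N p, galois := hgal N p }⟩
  obtain ⟨I⟩ := hin M lam
  obtain ⟨O'', i1, i2, i3, i4, i5, i6, i7, i8, i9, hinj, ρ, hρ, -⟩ :=
    exists_galoisRep_of_inputs I hlamS hMS O' hlamO' (iota.comp chig.rangeRestrict)
  refine ⟨O'', i1, i2, i3, i4, i5, i6, i7, i8, i9, hinj, ρ, hρ, ?_⟩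
  intro q hq hql hqM hq2 A hA σ hσ
  -- integrality makes `iota` injective
  have hint : ∀ x : chig.range, IsIntegral ℤ x := by
    intro x
    obtain ⟨t, rfl⟩ := chig.rangeRestrict_surjective x
    exact (isIntegral_of_faithful (I.model.hecke.comp (toAnemic (S := (↑S : Set ℕ)) hMS))
      (I.model.hecke_injective.comp (toAnemic_injective _)) t).map chig.rangeRestrict.toIntAlgHom
  have : Algebra.IsIntegral ℤ chig.range := ⟨hint⟩
  have hiota : Function.Injective iota := by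
    rw [RingHom.injective_iff_ker_eq_bot]
    have := RingHom.ker_isPrime iota
    refine Ideal.eq_bot_of_comap_eq_bot (R := ℤ) ?_
    refine (Submodule.eq_bot_iff _).mpr fun n hn => ?_
    rw [Ideal.mem_comap, RingHom.mem_ker, eq_intCast, map_intCast, Int.cast_eq_zero] at hn
    exact hn
  obtain ⟨N, rfl⟩ : ∃ N, M = N * q := ⟨M / q, (Nat.div_mul_cancel hqM).symm⟩
  have : NeZero q := ⟨hq.ne_zero⟩
  have : NeZero N := ⟨fun h => NeZero.ne (N * q) (by rw [h, zero_mul])⟩
  have hqN : ¬ q ∣ N := fun h => hq2 (by rw [sq]; exact mul_dvd_mul_right h q)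
  have hne : N ≠ N * q := fun h => by
    have h' : N * 1 = N * q := by rw [mul_one]; exact h
    exact hq.ne_one (Nat.eq_of_mul_eq_mul_left (NeZero.pos N) h').symm
  obtain ⟨P, hP0, hP1⟩ := exists_killing hg (dvd_mul_right N q) hne hMS
    (fun p _ => ⟨hin _ p, hin _ p⟩) chig hchig
  refine charpoly_frobenius_at_bad hq hqN hql (hgal _ lam) (hgal _ lam) (torsionModel (N * q) lam)
    (torsionModel N lam) (oldMat N q lam) (oldMat_injective lam hq hqN)
    (fun ℓ hℓ hℓN hℓM => mat_mul_oldMat lam hℓ hℓN hℓM) (charpoly_eval_ne_zero lam hq hqN)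
    (hgeo N q lam hq hqN hql)
    hlamS hMS (by simpa using (map_nonunit (algebraMap O' O'') (lam : O') hlamO' :
      algebraMap O' O'' (lam : O') ∈ IsLocalRing.maximalIdeal O''))
    ((algebraMap O' O'').comp (iota.comp chig.rangeRestrict)) P hP0 (fun h => hP1 ?_) ρ hρ hA hσ
  have h2 : chig.rangeRestrict (heckePolyEval (N * q) (↑S : Set ℕ) (N * q) (fun _ h => h) P) = 0 :=
    hiota ((hinj (h.trans (map_zero (algebraMap O' O'')).symm)).trans (map_zero iota).symm)
  exact congrArg Subtype.val h2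

end Fermat.Agent.TwoComponent
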